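import Mathlib

/-!
# S59, block [G5], sub-cell hTW (helper23): the linear-algebra core (L)

Tag `m59tw_`.  Mathlib only.

A group `Γ` acts irreducibly on a plane `M` over a field `K` through `r`; `G ≤ Γ` has index `2` and
stabilises a line `V` (`V ≠ ⊥`, `V ≠ ⊤`).

* `m59tw_struct`  : `V = K e`, and `e, r γ e` span `M` for every `γ ∉ G`;
* `m59tw_G_e`, `m59tw_G_e'` : elements of `G` are diagonal in the frame `e, r γ e`;
* `m59tw_sq_scalar` : the square of an element outside `G` is a scalar;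
* `m59tw_sq_one`    : ... and it is `1` if the element has the eigenvalue `1`;
* `m59tw_core`      : every element of a subgroup `I ⊄ G` with commutative image has scalar square;
* `m59tw_G_eq_one`  : `σ ∈ G` with the eigenvalue `1`, `τ₁ ∉ G`, `(r τ₁)² = 1 = (r (σ τ₁))²` ⟹ `r σ = 1`;
* `m59tw_pow_eight` : in characteristic `3`, `σ ∈ G` with `(r σ)² = t (r σ) - d`, `t³ = t`, `d² = 1`
                      has `(r σ)⁸ = 1`.
-/

set_option autoImplicit false

namespace Fermat.Agent.M59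

section core

variable {K : Type*} [Field K] {M : Type*} [AddCommGroup M] [Module K M]
  {Γ : Type*} [Group Γ] (r : Γ →* Module.End K M)

/-- `r g (r g⁻¹ x) = x`. -/
theorem m59tw_mul_inv_apply (g : Γ) (x : M) : r g (r g⁻¹ x) = x := by
  rw [← Module.End.mul_apply, ← map_mul, mul_inv_cancel, map_one, Module.End.one_apply]

/-- `r g⁻¹ (r g x) = x`. -/
theorem m59tw_inv_mul_apply (g : Γ) (x : M) : r g⁻¹ (r g x) = x := by
  rw [← Module.End.mul_apply, ← map_mul, inv_mul_cancel, map_one, Module.End.one_apply]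

theorem m59tw_apply_ne_zero (g : Γ) {x : M} (hx : x ≠ 0) : r g x ≠ 0 := by
  intro h
  apply hx
  rw [← m59tw_inv_mul_apply r g x, h, map_zero]

/-- in a subgroup of index `2`: `γ ∉ G`, `σ ∉ G` ⟹ `γ⁻¹ σ ∈ G`. -/
theorem m59tw_inv_mul_mem {G : Subgroup Γ} (hG : G.index = 2) {γ σ : Γ} (hγ : γ ∉ G)
    (hσ : σ ∉ G) : γ⁻¹ * σ ∈ G := by
  rw [Subgroup.mul_mem_iff_of_index_two hG]
  constructor
  · intro h; exact absurd (by simpa using G.inv_mem h) hγ
  · intro h; exact absurd h hσ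

/-- in a subgroup of index `2`: `σ ∈ G`, `τ ∉ G` ⟹ `σ τ ∉ G`. -/
theorem m59tw_mul_not_mem {G : Subgroup Γ} {σ τ : Γ} (hσ : σ ∈ G) (hτ : τ ∉ G) :
    σ * τ ∉ G := fun h => hτ ((Subgroup.mul_mem_cancel_left G hσ).mp h)

variable {r}

/-- **the structure**: `V = K e` and `e, r γ e` span `M` for all `γ ∉ G`. -/
theorem m59tw_struct (hM : Module.finrank K M = 2)
    (hirr : ∀ W : Submodule K M, (∀ σ : Γ, ∀ x ∈ W, r σ x ∈ W) → W = ⊥ ∨ W = ⊤)
    (G : Subgroup Γ) (hG : G.index = 2) (V : Submodule K M)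
    (hV : ∀ σ ∈ G, ∀ x ∈ V, r σ x ∈ V) (hV0 : V ≠ ⊥) (hV1 : V ≠ ⊤) :
    ∃ e : M, e ≠ 0 ∧ e ∈ V ∧ (∀ x ∈ V, ∃ c : K, x = c • e) ∧
      ∀ γ : Γ, γ ∉ G → Submodule.span K {e, r γ e} = ⊤ := by
  classical
  have : G.Normal := Subgroup.normal_of_index_eq_two hG
  have : Module.Finite K M := Module.finite_of_finrank_eq_succ hM
  -- an element outside `G`
  obtain ⟨τ₁, hτ₁G⟩ : ∃ τ₁ : Γ, τ₁ ∉ G := by
    by_contra hall
    push Not at hall
    have : G = ⊤ := top_unique fun σ _ => hall σ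
    rw [this, Subgroup.index_top] at hG
    omega
  obtain ⟨e, heV, he0⟩ := (Submodule.ne_bot_iff V).mp hV0
  have key : ∀ γ : Γ, γ ∉ G → Submodule.span K {e, r γ e} = ⊤ := by
    intro γ hγ
    set V' : Submodule K M := V.map (r γ) with hV'
    have hV'G : ∀ σ ∈ G, ∀ x ∈ V', r σ x ∈ V' := by
      rintro σ hσ x ⟨v, hv, rfl⟩
      refine ⟨r (γ⁻¹ * σ * γ) v, hV _ ?_ v hv, ?_⟩
      · have := Subgroup.Normal.conj_mem (inferInstance : G.Normal) σ hσ γ⁻¹
        simpa [mul_assoc] using this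
      · show r γ (r (γ⁻¹ * σ * γ) v) = r σ (r γ v)
        rw [← Module.End.mul_apply, ← Module.End.mul_apply, ← map_mul, ← map_mul]
        congr 2
        group
    have hγV' : ∀ x ∈ V', r γ x ∈ V := by
      rintro x ⟨v, hv, rfl⟩
      rw [← Module.End.mul_apply, ← map_mul]
      exact hV _ (Subgroup.mul_self_mem_of_index_two hG γ) v hv
    have hγV : ∀ x ∈ V, r γ x ∈ V' := fun x hx => ⟨x, hx, rfl⟩
    have hall : ∀ σ : Γ, σ ∈ G ∨ γ⁻¹ * σ ∈ G := by
      intro σ
      by_cases hσ : σ ∈ G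
      · exact Or.inl hσ
      · exact Or.inr (m59tw_inv_mul_mem hG hγ hσ)
    have hmeet : ∀ σ : Γ, ∀ x ∈ V ⊓ V', r σ x ∈ V ⊓ V' := by
      intro σ x hx
      rcases hall σ with hσ | hσ
      · exact ⟨hV σ hσ x hx.1, hV'G σ hσ x hx.2⟩
      · have hσeq : σ = γ * (γ⁻¹ * σ) := by group
        rw [hσeq, map_mul, Module.End.mul_apply]
        exact ⟨hγV' _ (hV'G _ hσ x hx.2), hγV _ (hV _ hσ x hx.1)⟩
    have hjoin : ∀ σ : Γ, ∀ x ∈ V ⊔ V', r σ x ∈ V ⊔ V' := by
      intro σ x hx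
      obtain ⟨a, ha, b, hb, rfl⟩ := Submodule.mem_sup.mp hx
      rw [map_add]
      rcases hall σ with hσ | hσ
      · exact Submodule.add_mem _ (Submodule.mem_sup_left (hV σ hσ a ha))
          (Submodule.mem_sup_right (hV'G σ hσ b hb))
      · have hσeq : σ = γ * (γ⁻¹ * σ) := by group
        rw [hσeq, map_mul, Module.End.mul_apply, Module.End.mul_apply]
        exact Submodule.add_mem _ (Submodule.mem_sup_right (hγV _ (hV _ hσ a ha)))
          (Submodule.mem_sup_left (hγV' _ (hV'G _ hσ b hb)))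
    have hmeet0 : V ⊓ V' = ⊥ := by
      rcases hirr _ hmeet with h | h
      · exact h
      · exact absurd (top_unique (h ▸ inf_le_left)) hV1
    have hjoin1 : V ⊔ V' = ⊤ := by
      rcases hirr _ hjoin with h | h
      · exact absurd (bot_unique (h ▸ le_sup_left)) hV0
      · exact h
    have hdim : Module.finrank K V + Module.finrank K V' = 2 := by
      have := Submodule.finrank_sup_add_finrank_inf_eq V V'
      rw [hjoin1, hmeet0, finrank_top, finrank_bot, hM] at this
      omega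
    have hVpos : 0 < Module.finrank K V := Module.finrank_pos_iff.mpr
      ⟨⟨⟨e, heV⟩, 0, fun h => he0 (congrArg Subtype.val h)⟩⟩
    have he' : r γ e ≠ 0 := m59tw_apply_ne_zero r γ he0
    have hV'pos : 0 < Module.finrank K V' := Module.finrank_pos_iff.mpr
      ⟨⟨⟨r γ e, hγV e heV⟩, 0, fun h => he' (congrArg Subtype.val h)⟩⟩
    have hV1' : Module.finrank K V = 1 := by omega
    have hV'1 : Module.finrank K V' = 1 := by omega
    have hVspan : V = Submodule.span K {e} := by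
      refine (Submodule.eq_of_le_of_finrank_eq ?_ ?_).symm
      · rw [Submodule.span_singleton_le_iff_mem]; exact heV
      · rw [finrank_span_singleton he0, hV1']
    have hV'span : V' = Submodule.span K {r γ e} := by
      refine (Submodule.eq_of_le_of_finrank_eq ?_ ?_).symm
      · rw [Submodule.span_singleton_le_iff_mem]; exact hγV e heV
      · rw [finrank_span_singleton he', hV'1]
    rw [Submodule.span_insert, ← hVspan, ← hV'span, hjoin1]
  refine ⟨e, he0, heV, ?_, key⟩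
  intro x hx
  have hk := key τ₁ hτ₁G
  have hx' : x ∈ Submodule.span K {e, r τ₁ e} := by rw [hk]; trivial
  obtain ⟨a, b, rfl⟩ := Submodule.mem_span_pair.mp hx'
  by_cases hb : b = 0
  · exact ⟨a, by rw [hb, zero_smul, add_zero]⟩
  · exfalso
    have h1 : b • r τ₁ e ∈ V := by
      have := V.sub_mem hx (V.smul_mem a heV)
      simpa using this
    have h2 : r τ₁ e ∈ V := by
      have := V.smul_mem b⁻¹ h1
      rwa [smul_smul, inv_mul_cancel₀ hb, one_smul] at this
    have hτ₁V : ∀ z ∈ V, r τ₁ z ∈ V := by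
      intro z hz
      have hz' : z ∈ Submodule.span K {e, r τ₁ e} := by rw [hk]; trivial
      obtain ⟨a', b', rfl⟩ := Submodule.mem_span_pair.mp hz'
      rw [map_add, map_smul, map_smul]
      refine V.add_mem (V.smul_mem _ h2) (V.smul_mem _ ?_)
      rw [← Module.End.mul_apply, ← map_mul]
      exact hV _ (Subgroup.mul_self_mem_of_index_two hG τ₁) e heV
    have hstab : ∀ σ : Γ, ∀ y ∈ V, r σ y ∈ V := by
      intro σ y hy
      by_cases hσ : σ ∈ G
      · exact hV σ hσ y hy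
      · have hg : τ₁⁻¹ * σ ∈ G := m59tw_inv_mul_mem hG hτ₁G hσ
        have hσeq : σ = τ₁ * (τ₁⁻¹ * σ) := by group
        rw [hσeq, map_mul, Module.End.mul_apply]
        exact hτ₁V _ (hV _ hg y hy)
    rcases hirr V hstab with h | h
    · exact hV0 h
    · exact hV1 h

end core

/-! ### consequences, in a fixed frame -/

section frame

variable {K : Type*} [Field K] {M : Type*} [AddCommGroup M] [Module K M]
  {Γ : Type*} [Group Γ] {r : Γ →* Module.End K M}
  {G : Subgroup Γ} {V : Submodule K M} {e : M}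

/-- elements of `G` are diagonal: first vector. -/
theorem m59tw_G_e (hV : ∀ σ ∈ G, ∀ x ∈ V, r σ x ∈ V) (heV : e ∈ V)
    (hline : ∀ x ∈ V, ∃ c : K, x = c • e) {σ : Γ} (hσ : σ ∈ G) : ∃ x : K, r σ e = x • e :=
  hline _ (hV σ hσ e heV)

/-- elements of `G` are diagonal: second vector. -/
theorem m59tw_G_e' (hG : G.index = 2) (hV : ∀ σ ∈ G, ∀ x ∈ V, r σ x ∈ V) (heV : e ∈ V)
    (hline : ∀ x ∈ V, ∃ c : K, x = c • e) {σ γ : Γ} (hσ : σ ∈ G) :
    ∃ y : K, r σ (r γ e) = y • r γ e := by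
  have : G.Normal := Subgroup.normal_of_index_eq_two hG
  have hc : γ⁻¹ * σ * γ ∈ G := by
    have := Subgroup.Normal.conj_mem (inferInstance : G.Normal) σ hσ γ⁻¹
    simpa [mul_assoc] using this
  obtain ⟨y, hy⟩ := m59tw_G_e hV heV hline hc
  refine ⟨y, ?_⟩
  have h1 : r σ (r γ e) = r γ (r (γ⁻¹ * σ * γ) e) := by
    rw [← Module.End.mul_apply, ← Module.End.mul_apply, ← map_mul, ← map_mul]
    congr 2
    group
  rw [h1, hy, map_smul]

/-- an endomorphism is determined by its values on the frame. -/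
theorem m59tw_ext {γ : Γ} (hkey : Submodule.span K {e, r γ e} = ⊤) {f g : Module.End K M}
    (h1 : f e = g e) (h2 : f (r γ e) = g (r γ e)) : f = g := by
  apply LinearMap.ext_on hkey
  intro x hx
  rcases hx with rfl | rfl
  · exact h1
  · exact h2

/-- the square of an element outside `G` is a scalar. -/
theorem m59tw_sq_scalar (hG : G.index = 2) (hV : ∀ σ ∈ G, ∀ x ∈ V, r σ x ∈ V) (heV : e ∈ V)
    (hline : ∀ x ∈ V, ∃ c : K, x = c • e) {τ : Γ}
    (hkey : Submodule.span K {e, r τ e} = ⊤) :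
    ∃ a : K, r τ * r τ = a • (1 : Module.End K M) := by
  have hττ : τ * τ ∈ G := Subgroup.mul_self_mem_of_index_two hG τ
  obtain ⟨a, ha⟩ := m59tw_G_e hV heV hline hττ
  refine ⟨a, ?_⟩
  have h1 : (r τ * r τ) e = a • e := by rw [← map_mul]; exact ha
  have h2 : (r τ * r τ) (r τ e) = a • r τ e := by
    rw [Module.End.mul_apply, ← Module.End.mul_apply (r τ) (r τ) e, h1, map_smul]
  exact m59tw_ext hkey (by simpa using h1) (by simpa using h2)

/-- `det (f - 1) = 0` gives a non-zero fixed vector. -/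
theorem m59tw_exists_fixed [FiniteDimensional K M] {f : Module.End K M}
    (hf : LinearMap.det (f - 1) = 0) : ∃ w : M, w ≠ 0 ∧ f w = w := by
  have h := LinearMap.bot_lt_ker_of_det_eq_zero hf
  obtain ⟨w, hw, hw0⟩ := (Submodule.ne_bot_iff _).mp (ne_of_gt h)
  refine ⟨w, hw0, ?_⟩
  rw [LinearMap.mem_ker, LinearMap.sub_apply, Module.End.one_apply, sub_eq_zero] at hw
  exact hw

/-- an element outside `G` with the eigenvalue `1` is an involution. -/
theorem m59tw_sq_one [FiniteDimensional K M] (hG : G.index = 2)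
    (hV : ∀ σ ∈ G, ∀ x ∈ V, r σ x ∈ V) (heV : e ∈ V)
    (hline : ∀ x ∈ V, ∃ c : K, x = c • e) {τ : Γ}
    (hkey : Submodule.span K {e, r τ e} = ⊤) (hτ1 : LinearMap.det (r τ - 1) = 0) :
    r τ * r τ = 1 := by
  obtain ⟨a, ha⟩ := m59tw_sq_scalar hG hV heV hline hkey
  obtain ⟨w, hw0, hw⟩ := m59tw_exists_fixed hτ1
  have h1 : (r τ * r τ) w = w := by rw [Module.End.mul_apply, hw, hw]
  rw [ha, LinearMap.smul_apply, Module.End.one_apply] at h1
  have h2 : (a - 1) • w = 0 := by rw [sub_smul, one_smul, h1, sub_self]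
  have h3 : a = 1 := by
    rcases smul_eq_zero.mp h2 with h | h
    · exact sub_eq_zero.mp h
    · exact absurd h hw0
  rw [ha, h3, one_smul]

/-- **(L) the core**: every element of a subgroup `I ⊄ G` with commutative image has scalar
square. -/
theorem m59tw_core (hM : Module.finrank K M = 2)
    (hirr : ∀ W : Submodule K M, (∀ σ : Γ, ∀ x ∈ W, r σ x ∈ W) → W = ⊥ ∨ W = ⊤)
    (G : Subgroup Γ) (hG : G.index = 2) (V : Submodule K M)
    (hV : ∀ σ ∈ G, ∀ x ∈ V, r σ x ∈ V) (hV0 : V ≠ ⊥) (hV1 : V ≠ ⊤)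
    (I : Subgroup Γ) (hIG : ¬ I ≤ G) (hcomm : ∀ a ∈ I, ∀ b ∈ I, r a * r b = r b * r a)
    (τ : Γ) (hτ : τ ∈ I) : ∃ c : K, r τ * r τ = c • (1 : Module.End K M) := by
  obtain ⟨e, -, heV, hline, key⟩ := m59tw_struct hM hirr G hG V hV hV0 hV1
  obtain ⟨τ₁, hτ₁I, hτ₁G⟩ := SetLike.not_le_iff_exists.mp hIG
  by_cases hτG : τ ∈ G
  · obtain ⟨α, hα⟩ := m59tw_G_e hV heV hline hτG
    refine ⟨α * α, ?_⟩
    have h2 : r τ (r τ₁ e) = α • r τ₁ e := by
      have hc := hcomm τ hτ τ₁ hτ₁I
      have := congrArg (fun f : Module.End K M => f e) hc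
      simp only [Module.End.mul_apply] at this
      rw [this, hα, map_smul]
    have hsc : r τ = α • (1 : Module.End K M) :=
      m59tw_ext (key τ₁ hτ₁G) (by simpa using hα) (by simpa using h2)
    rw [hsc]
    ext x
    simp [smul_smul]
  · exact m59tw_sq_scalar hG hV heV hline (key τ hτG)

/-- `σ ∈ G` with the eigenvalue `1`, `τ₁ ∉ G`, `(r τ₁)² = 1 = (r (σ τ₁))²` ⟹ `r σ = 1`. -/
theorem m59tw_G_eq_one [FiniteDimensional K M] (hG : G.index = 2)
    (hV : ∀ σ ∈ G, ∀ x ∈ V, r σ x ∈ V) (he0 : e ≠ 0) (heV : e ∈ V)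
    (hline : ∀ x ∈ V, ∃ c : K, x = c • e) {σ τ₁ : Γ} (hσ : σ ∈ G)
    (hkey : Submodule.span K {e, r τ₁ e} = ⊤)
    (h1 : r τ₁ * r τ₁ = 1) (h2 : r (σ * τ₁) * r (σ * τ₁) = 1)
    (hσ1 : LinearMap.det (r σ - 1) = 0) : r σ = 1 := by
  obtain ⟨x, hx⟩ := m59tw_G_e hV heV hline hσ
  obtain ⟨y, hy⟩ := m59tw_G_e' (γ := τ₁) hG hV heV hline hσ
  have hτe : r τ₁ (r τ₁ e) = e := by
    rw [← Module.End.mul_apply, h1, Module.End.one_apply]
  -- `x y = 1`
  have hxy : y * x = 1 := by
    have ha : r (σ * τ₁) e = y • r τ₁ e := by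
      rw [map_mul, Module.End.mul_apply, hy]
    have hb : r (σ * τ₁) (r τ₁ e) = x • e := by
      rw [map_mul, Module.End.mul_apply, hτe, hx]
    have h3 : (r (σ * τ₁) * r (σ * τ₁)) e = (y * x) • e := by
      rw [Module.End.mul_apply, ha, map_smul, hb, smul_smul]
    rw [h2, Module.End.one_apply] at h3
    have h4 : (y * x - 1) • e = 0 := by rw [sub_smul, one_smul, ← h3, sub_self]
    rcases smul_eq_zero.mp h4 with h | h
    · exact sub_eq_zero.mp h
    · exact absurd h he0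
  -- `(f - x)(f - y) = 0`
  have hprod : (r σ - x • 1) * (r σ - y • 1) = (0 : Module.End K M) := by
    apply m59tw_ext hkey
    · have hA : (r σ - y • (1 : Module.End K M)) e = (x - y) • e := by
        rw [LinearMap.sub_apply, LinearMap.smul_apply, Module.End.one_apply, hx, sub_smul]
      rw [Module.End.mul_apply, hA, map_smul, LinearMap.sub_apply, LinearMap.smul_apply,
        Module.End.one_apply, hx, sub_self, smul_zero, LinearMap.zero_apply]
    · have hB : (r σ - y • (1 : Module.End K M)) (r τ₁ e) = 0 := by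
        rw [LinearMap.sub_apply, LinearMap.smul_apply, Module.End.one_apply, hy, sub_self]
      rw [Module.End.mul_apply, hB, map_zero, LinearMap.zero_apply]
  obtain ⟨w, hw0, hw⟩ := m59tw_exists_fixed hσ1
  have h5 : ((1 - x) * (1 - y)) • w = 0 := by
    have := congrArg (fun f : Module.End K M => f w) hprod
    simp only [Module.End.mul_apply, LinearMap.sub_apply, LinearMap.smul_apply,
      Module.End.one_apply, LinearMap.zero_apply, hw, map_sub, map_smul] at this
    rw [← this]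
    module
  have h6 : (1 - x) * (1 - y) = 0 := by
    rcases smul_eq_zero.mp h5 with h | h
    · exact h
    · exact absurd h hw0
  have hx1 : x = 1 ∧ y = 1 := by
    rcases mul_eq_zero.mp h6 with h | h
    · have hx1 : x = 1 := (sub_eq_zero.mp h).symm
      refine ⟨hx1, ?_⟩
      rw [hx1, mul_one] at hxy
      exact hxy
    · have hy1 : y = 1 := (sub_eq_zero.mp h).symm
      refine ⟨?_, hy1⟩
      rw [hy1, one_mul] at hxy
      exact hxy
  apply m59tw_ext hkey
  · rw [hx, hx1.1, one_smul, Module.End.one_apply]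
  · rw [hy, hx1.2, one_smul, Module.End.one_apply]

/-- a root `z` of `X² - t X + d` with `t³ = t`, `d² = 1` in characteristic `3` has `z⁸ = 1`. -/
theorem m59tw_root_pow_eight [CharP K 3] {z t d : K} (ht : t ^ 3 = t) (hd : d ^ 2 = 1)
    (hz : z ^ 2 = t * z - d) : z ^ 8 = 1 := by
  have hd0 : d ≠ 0 := by
    intro h
    rw [h] at hd
    simp at hd
  have hz0 : z ≠ 0 := by
    intro h
    rw [h] at hz
    apply hd0
    have : (0 : K) = -d := by simpa using hz
    exact neg_eq_zero.mp this.symm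
  have hd3 : d ^ 3 = d := by
    calc d ^ 3 = d ^ 2 * d := by ring
      _ = d := by rw [hd, one_mul]
  -- `w = z³` is again a root
  have hw : (z ^ 3) ^ 2 = t * z ^ 3 - d := by
    have h1 : (z ^ 2) ^ 3 = (t * z - d) ^ 3 := by rw [hz]
    have h2 : (t * z - d) ^ 3 = (t * z) ^ 3 - d ^ 3 := sub_pow_char (t * z) d
    rw [h2, mul_pow, ht, hd3] at h1
    rw [← h1]
    ring
  -- `(w - z)(w - (t - z)) = 0`
  have hprod : (z ^ 3 - z) * (z ^ 3 - (t - z)) = 0 := by
    have : (z ^ 3 - z) * (z ^ 3 - (t - z)) = (z ^ 3) ^ 2 - t * z ^ 3 + (t * z - z ^ 2) := by ring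
    rw [this, hw, hz]
    ring
  rcases mul_eq_zero.mp hprod with h | h
  · have h1 : z ^ 3 = z := sub_eq_zero.mp h
    have h2 : z ^ 2 = 1 := by
      have : z * (z ^ 2 - 1) = 0 := by
        have : z * (z ^ 2 - 1) = z ^ 3 - z := by ring
        rw [this, h1, sub_self]
      rcases mul_eq_zero.mp this with h' | h'
      · exact absurd h' hz0
      · exact sub_eq_zero.mp h'
    calc z ^ 8 = (z ^ 2) ^ 4 := by ring
      _ = 1 := by rw [h2, one_pow]
  · have h1 : z ^ 3 = t - z := sub_eq_zero.mp h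
    have h2 : z ^ 4 = d := by
      calc z ^ 4 = z ^ 3 * z := by ring
        _ = (t - z) * z := by rw [h1]
        _ = t * z - z ^ 2 := by ring
        _ = d := by rw [hz]; ring
    calc z ^ 8 = (z ^ 4) ^ 2 := by ring
      _ = 1 := by rw [h2, hd]

/-- in characteristic `3`: `σ ∈ G` with `(r σ)² = t (r σ) - d`, `t³ = t`, `d² = 1` has `(r σ)⁸ = 1`. -/
theorem m59tw_pow_eight [CharP K 3] (hG : G.index = 2)
    (hV : ∀ σ ∈ G, ∀ x ∈ V, r σ x ∈ V) (he0 : e ≠ 0) (heV : e ∈ V)
    (hline : ∀ x ∈ V, ∃ c : K, x = c • e) {σ γ : Γ} (hσ : σ ∈ G)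
    (hkey : Submodule.span K {e, r γ e} = ⊤) {t d : K} (ht : t ^ 3 = t) (hd : d ^ 2 = 1)
    (hCH : r σ * r σ = t • r σ - d • (1 : Module.End K M)) : r σ ^ 8 = 1 := by
  obtain ⟨x, hx⟩ := m59tw_G_e hV heV hline hσ
  obtain ⟨y, hy⟩ := m59tw_G_e' (γ := γ) hG hV heV hline hσ
  have he' : r γ e ≠ 0 := m59tw_apply_ne_zero r γ he0
  have hroot : ∀ (v : M) (z : K), v ≠ 0 → r σ v = z • v → z ^ 2 = t * z - d := by
    intro v z hv hz
    have h1 := congrArg (fun f : Module.End K M => f v) hCH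
    simp only [Module.End.mul_apply, LinearMap.sub_apply, LinearMap.smul_apply,
      Module.End.one_apply, hz, map_smul] at h1
    have h2 : (z ^ 2 - (t * z - d)) • v = 0 := by
      have : (z ^ 2 - (t * z - d)) • v = z • z • v - (t • z • v - d • v) := by module
      rw [this, h1, sub_self]
    rcases smul_eq_zero.mp h2 with h | h
    · exact sub_eq_zero.mp h
    · exact absurd h hv
  have hpow : ∀ (v : M) (z : K), r σ v = z • v → ∀ n : ℕ, (r σ ^ n) v = z ^ n • v := by
    intro v z hz n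
    induction n with
    | zero => simp
    | succ n ih => rw [pow_succ, Module.End.mul_apply, hz, map_smul, ih, smul_smul, pow_succ, mul_comm]
  have hx8 := m59tw_root_pow_eight ht hd (hroot e x he0 hx)
  have hy8 := m59tw_root_pow_eight ht hd (hroot _ y he' hy)
  apply m59tw_ext hkey
  · rw [hpow e x hx 8, hx8, one_smul, Module.End.one_apply]
  · rw [hpow _ y hy 8, hy8, one_smul, Module.End.one_apply]

end frame

end Fermat.Agent.M59
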