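import Mathlib
import Fermat.Agent.TW.Aut.CarLocalGal

/-!
# S59, block [G5], sub-cell hTW (helper23): absolutely irreducible ⟹ irreducible over every extension

Tag `m59tw_`.

* `m59tw_irr_baseChange` : an absolutely irreducible residual representation stays irreducible after
  base change to ANY field extension `K` of `k` (Burnside `twe_cg_span` on main: the operators span
  `End_k V`, so a stable `K`-subspace of `K ⊗ V` is stable under `End_k V`, hence `⊥` or `⊤`).
-/

set_option autoImplicit false

open scoped TensorProduct

namespace Fermat.Agent.M59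

open Fermat.Agent.TW

variable {k : Type} [Field k]

/-- a `K`-subspace of `K ⊗ V` stable under all `f ⊗ 1`, `f ∈ End_k V`, is `⊥` or `⊤`. -/
theorem m59tw_stable_all {V : Type} [AddCommGroup V] [Module k V] [Module.Finite k V]
    (K : Type) [Field K] [Algebra k K] (W : Submodule K (K ⊗[k] V))
    (hW : ∀ f : Module.End k V, ∀ x ∈ W, f.baseChange K x ∈ W) : W = ⊥ ∨ W = ⊤ := by
  classical
  by_cases h0 : W = ⊥
  · exact Or.inl h0
  right
  obtain ⟨w, hwW, hw0⟩ := (Submodule.ne_bot_iff W).mp h0
  let b := Module.finBasis k V
  let bK := Algebra.TensorProduct.basis K b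
  -- some coordinate of `w` is non-zero
  obtain ⟨i, hi⟩ : ∃ i, bK.repr w i ≠ 0 := by
    by_contra hall
    push Not at hall
    apply hw0
    apply bK.repr.injective
    ext i
    rw [hall i]
    simp
  rw [eq_top_iff, ← bK.span_eq, Submodule.span_le]
  rintro _ ⟨j, rfl⟩
  -- the matrix unit `E_{ji}`
  let f : Module.End k V := b.constr k (fun l => if l = i then b j else 0)
  have hf : ∀ l, f (b l) = if l = i then b j else 0 := fun l => b.constr_basis k _ l
  have hF : f.baseChange K w = bK.repr w i • bK j := by
    conv_lhs => rw [← bK.sum_repr w]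
    rw [map_sum]
    rw [Finset.sum_eq_single i]
    · rw [map_smul]
      congr 1
      rw [Algebra.TensorProduct.basis_apply, LinearMap.baseChange_tmul, hf, if_pos rfl,
        Algebra.TensorProduct.basis_apply]
    · intro l _ hl
      rw [map_smul, Algebra.TensorProduct.basis_apply, LinearMap.baseChange_tmul, hf, if_neg hl,
        TensorProduct.tmul_zero, smul_zero]
    · intro h
      exact absurd (Finset.mem_univ i) h
  have h1 : bK.repr w i • bK j ∈ W := hF ▸ hW f w hwW
  have h2 := W.smul_mem (bK.repr w i)⁻¹ h1
  rwa [smul_smul, inv_mul_cancel₀ hi, one_smul] at h2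

/-- **absolutely irreducible ⟹ irreducible over every extension.** -/
theorem m59tw_irr_baseChange (ρbar : ResidualGaloisRep k) (habs : ρbar.IsAbsolutelyIrreducible)
    (K : Type) [Field K] [Algebra k K] : (ρbar.baseChange K).IsIrreducible := by
  intro W hW
  -- the `k`-subspace of the endomorphisms preserving `W`
  let S : Submodule k (Module.End k ρbar.V) :=
    { carrier := {f | ∀ x ∈ W, f.baseChange K x ∈ W}
      add_mem' := by
        intro f g hf hg x hx
        rw [LinearMap.baseChange_add, LinearMap.add_apply]
        exact W.add_mem (hf x hx) (hg x hx)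
      zero_mem' := by
        intro x _
        rw [LinearMap.baseChange_zero, LinearMap.zero_apply]
        exact W.zero_mem
      smul_mem' := by
        intro a f hf x hx
        rw [LinearMap.baseChange_smul, LinearMap.smul_apply, ← algebraMap_smul K a]
        exact W.smul_mem _ (hf x hx) }
  have hS : S = ⊤ := by
    rw [eq_top_iff, ← twe_cg_span ρbar habs, Submodule.span_le]
    rintro _ ⟨σ, rfl⟩
    exact fun x hx => hW σ x hx
  refine m59tw_stable_all K W (fun f x hx => ?_)
  have : f ∈ S := by rw [hS]; trivial
  exact this x hx

end Fermat.Agent.M59
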