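import Mathlib
import Fermat.Agent.S13.Global.Unramified
import Fermat.Agent.S55.Places.Basic
import Fermat.Agent.TW.Top.CInput

/-!
# S59, block [G5], sub-cell hTW (helper23): the end game at `p = 3`, ordinary case

Tag `m59tw_`.

* `m59tw_pgroup_top` : in a finite `ℓ`-group, a subgroup containing an element `c` whose normal
                       closure is everything is everything (maximal subgroups are normal);
* `m59tw_three_end`  : `ρ̄` with image of exponent `16`, unramified outside `3`, whose inertia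
                       groups at one place `P ∣ 3` act through `{1, ρ̄ τ₁}`: every vector fixed by
                       `ρ̄ τ₁` is fixed by `G_ℚ` (Minkowski `g1_char_eq_one` on main: the image is the
                       normal closure of `ρ̄ τ₁`).
-/

set_option autoImplicit false
set_option linter.unusedSectionVars false
set_option linter.style.haveILetI false

open scoped TensorProduct Pointwise

namespace Fermat.Agent.M59

open Fermat.Agent.TW

local notation "Qb" => AlgebraicClosure ℚ
local notation "GQ" => (AlgebraicClosure ℚ ≃ₐ[ℚ] AlgebraicClosure ℚ)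

/-- in a finite `ℓ`-group a subgroup containing `c` is everything as soon as the normal closure
of `c` is everything. -/
theorem m59tw_pgroup_top {Q : Type*} [Group Q] [Finite Q] {ℓ : ℕ} [Fact ℓ.Prime]
    (hQ : IsPGroup ℓ Q) (c : Q) (hc : Subgroup.normalClosure {c} = ⊤) (H : Subgroup Q)
    (hH : c ∈ H) : H = ⊤ := by
  by_contra hne
  obtain ⟨M, hM, hHM⟩ := (eq_top_or_exists_le_coatom H).resolve_left hne
  have : Group.IsNilpotent Q := hQ.isNilpotent
  have hMn : M.Normal :=
    Subgroup.NormalizerCondition.normal_of_coatom M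
      (Group.normalizerCondition_of_isNilpotent (G := Q)) hM
  have h1 : Subgroup.normalClosure {c} ≤ M :=
    Subgroup.normalClosure_le_normal (Set.singleton_subset_iff.mpr (hHM hH))
  rw [hc] at h1
  exact hM.1 (top_unique h1)

section three

variable {k : Type} [Field k] [Finite k] (ρbar : ResidualGaloisRep k)

/-- **the end game at `p = 3`.** -/
theorem m59tw_three_end (K : Type) [Field K] [Algebra k K]
    (h16 : ∀ σ : GQ, ρbar.ρ σ ^ 16 = 1)
    (hunr : ∀ q : ℕ, q.Prime → q ≠ 3 → ρbar.IsUnramifiedAt q)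
    (P : ValuationSubring Qb) (hP : P.LiesOverPrime 3) (τ₁ : GQ)
    (hIP : ∀ σ ∈ P.inertiaSubgroupIn ℚ, ρbar.ρ σ = 1 ∨ ρbar.ρ σ = ρbar.ρ τ₁)
    (w₀ : (ρbar.baseChange K).V) (hw : (ρbar.baseChange K).ρ τ₁ w₀ = w₀) (σ : GQ) :
    (ρbar.baseChange K).ρ σ w₀ = w₀ := by
  classical
  -- the finite image
  haveI : Finite ρbar.V := Module.finite_of_finite k
  haveI : Finite (Module.End k ρbar.V) := Module.finite_of_finite k
  let φ : GQ →* (Module.End k ρbar.V)ˣ := ρbar.ρ.toHomUnits
  have hφ : ∀ τ : GQ, ((φ τ : (Module.End k ρbar.V)ˣ) : Module.End k ρbar.V) = ρbar.ρ τ :=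
    fun τ => rfl
  let π : GQ →* ↥φ.range := φ.rangeRestrict
  have hπsurj : Function.Surjective π := φ.rangeRestrict_surjective
  have hπ1 : ∀ τ : GQ, ρbar.ρ τ = 1 → π τ = 1 := by
    intro τ hτ
    apply Subtype.ext
    apply Units.ext
    show ρbar.ρ τ = 1
    exact hτ
  have hπeq : ∀ τ τ' : GQ, ρbar.ρ τ = ρbar.ρ τ' → π τ = π τ' := by
    intro τ τ' h
    apply Subtype.ext
    apply Units.ext
    exact h
  -- a `2`-group
  have hQ : IsPGroup 2 ↥φ.range := by
    intro g
    obtain ⟨τ, rfl⟩ := hπsurj g
    refine ⟨4, ?_⟩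
    apply Subtype.ext
    apply Units.ext
    show ((φ τ ^ 2 ^ 4 : (Module.End k ρbar.V)ˣ) : Module.End k ρbar.V) = 1
    rw [Units.val_pow_eq_pow_val, hφ]
    exact h16 τ
  -- Minkowski: the image is the normal closure of `c = π τ₁`
  set c : ↥φ.range := π τ₁ with hc
  set N : Subgroup ↥φ.range := Subgroup.normalClosure {c} with hN
  have hcN : c ∈ N := Subgroup.subset_normalClosure (Set.mem_singleton c)
  let ψ : GQ →* ↥φ.range ⧸ N := (QuotientGroup.mk' N).comp π
  obtain ⟨L, hL, hL1⟩ := ρbar.factorsThroughFiniteLevel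
  haveI := hL
  have hψ : ∀ τ : GQ, ψ τ = 1 := by
    intro τ
    refine Fermat.Agent.S13.g1_char_eq_one_of_fixingSubgroup_le ψ L ?_ ?_ τ
    · intro τ' hτ'
      rw [MonoidHom.mem_ker]
      show (QuotientGroup.mk' N) (π τ') = 1
      rw [hπ1 τ' (hL1 τ' (fun x hx => hτ' ⟨x, hx⟩)), map_one]
    · intro ℓ hℓ A hA τ' hτ'
      show (QuotientGroup.mk' N) (π τ') = 1
      by_cases hℓ3 : ℓ = 3
      · subst hℓ3
        obtain ⟨g, hg⟩ := Fermat.Agent.S55.pl_exists_smul_eq hℓ hP hA
        -- `g⁻¹ τ' g ∈ I_P`
        have h1 : g⁻¹ * τ' * g⁻¹⁻¹ ∈ (g⁻¹ • A).inertiaSubgroupIn ℚ :=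
          Fermat.Agent.S55.tl_inertia_conj A g⁻¹ τ' hτ'
        rw [← hg, inv_smul_smul, inv_inv] at h1
        have h2 : π (g⁻¹ * τ' * g) ∈ N := by
          rcases hIP _ h1 with h | h
          · rw [hπ1 _ h]; exact N.one_mem
          · rw [hπeq _ _ h]; exact hcN
        have h3 : π τ' = π g * π (g⁻¹ * τ' * g) * (π g)⁻¹ := by
          rw [← map_inv, ← map_mul, ← map_mul]
          congr 1
          group
        rw [QuotientGroup.mk'_apply, QuotientGroup.eq_one_iff, h3]
        exact (Subgroup.normalClosure_normal (s := {c})).conj_mem _ h2 _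
      · rw [hπ1 τ' (hunr ℓ hℓ hℓ3 A hA τ' hτ'), map_one]
  have hNtop : N = ⊤ := by
    rw [eq_top_iff]
    intro q _
    obtain ⟨τ, rfl⟩ := hπsurj q
    have := hψ τ
    rwa [show ψ τ = (QuotientGroup.mk' N) (π τ) from rfl, QuotientGroup.mk'_apply,
      QuotientGroup.eq_one_iff] at this
  -- the stabiliser of `w₀`
  let H : Subgroup ↥φ.range :=
    { carrier := {q | ((q : (Module.End k ρbar.V)ˣ) : Module.End k ρbar.V).baseChange K w₀ = w₀}
      mul_mem' := by
        intro a b ha hb
        show ((((a * b : ↥φ.range) : (Module.End k ρbar.V)ˣ) :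
          Module.End k ρbar.V)).baseChange K w₀ = w₀
        rw [Subgroup.coe_mul, Units.val_mul, LinearMap.baseChange_mul, Module.End.mul_apply]
        rw [show (((b : (Module.End k ρbar.V)ˣ) : Module.End k ρbar.V).baseChange K) w₀ = w₀
          from hb]
        exact ha
      one_mem' := by
        show ((((1 : ↥φ.range) : (Module.End k ρbar.V)ˣ) :
          Module.End k ρbar.V)).baseChange K w₀ = w₀
        rw [Subgroup.coe_one, Units.val_one, LinearMap.baseChange_one, Module.End.one_apply]
      inv_mem' := by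
        intro a ha
        show ((((a⁻¹ : ↥φ.range) : (Module.End k ρbar.V)ˣ) :
          Module.End k ρbar.V)).baseChange K w₀ = w₀
        have h1 : (((a⁻¹ : ↥φ.range) : (Module.End k ρbar.V)ˣ) : Module.End k ρbar.V) *
            (((a : ↥φ.range) : (Module.End k ρbar.V)ˣ) : Module.End k ρbar.V) = 1 := by
          rw [Subgroup.coe_inv, Units.inv_mul]
        have h2 := congrArg (fun f : Module.End k ρbar.V => f.baseChange K w₀) h1
        simp only [LinearMap.baseChange_mul, Module.End.mul_apply, LinearMap.baseChange_one,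
          Module.End.one_apply] at h2
        rw [show (((a : (Module.End k ρbar.V)ˣ) : Module.End k ρbar.V).baseChange K) w₀ = w₀
          from ha] at h2
        exact h2 }
  have hcH : c ∈ H := hw
  have hHtop : H = ⊤ := m59tw_pgroup_top hQ c hNtop H hcH
  have : π σ ∈ H := by rw [hHtop]; trivial
  exact this

end three

end Fermat.Agent.M59
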