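import Mathlib
import Fermat.Agent.S56.Flat.ClassL

/-!
# S59, block [G5], sub-cell hTW (helper23): arithmetic of the inertia group at `p`

Tag `m59tw_`.

* `m59tw_no_root_unif` : no inertia-fixed `β` with `v(β)^m = v(ℓ)`, `m ≥ 2`
                         (`ℓ` is a uniformiser of the inertia field: `mzo_Ctx.unif` on main);
* `m59tw_val_int_eq_one` : an integer prime to `ℓ` is a unit at every place over `ℓ`;
* `m59tw_exists_not_pm` : for `p ≥ 5` some `σ ∈ I_P` has `σ ζ ≠ ζ, ζ⁻¹` (`ζ` a primitive `p`-th root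
                         of unity): `ε̄² ≠ 1` on `I_P`;
* `m59tw_ss_moves`     : if `ϖ^(p²-1) = -p` (`p` odd) some `σ ∈ I_P` has `θ_ϖ(σ)^(2(p-1)) ≠ 1`
                         (the fundamental character of level `2` has order `> 2(p-1)` on `I_P`).
-/

set_option autoImplicit false
set_option linter.unusedSectionVars false

noncomputable section

namespace Fermat.Agent.M59

open Fermat.Agent.MZ Fermat.Agent.FF Fermat.Agent.S56

local notation "Qb" => AlgebraicClosure ℚ
local notation "GQ" => (AlgebraicClosure ℚ ≃ₐ[ℚ] AlgebraicClosure ℚ)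

/-- an inertia-fixed element `β` of `Q̄` with `v(β)^m = v(ℓ)`, `m ≥ 2`, does not exist. -/
theorem m59tw_no_root_unif (ℓ : ℕ) [hℓ : Fact ℓ.Prime] (A : ValuationSubring Qb)
    (hA : A.LiesOverPrime ℓ) (β : Qb) (m : ℕ) (hm : 2 ≤ m)
    (hfix : ∀ σ ∈ A.inertiaSubgroupIn ℚ, σ β = β)
    (hβ : A.valuation β ^ m = A.valuation ((ℓ : ℕ) : Qb)) : False := by
  have hctx := mzg_ctx ℓ A hA
  have hℓlt : A.valuation ((ℓ : ℕ) : Qb) < 1 := (ValuationSubring.mem_nonunits_iff A).mp hA
  have hℓ0 : A.valuation ((ℓ : ℕ) : Qb) ≠ 0 :=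
    (map_ne_zero _).mpr (Nat.cast_ne_zero.mpr hℓ.out.ne_zero)
  have hβlt : A.valuation β < 1 := by
    by_contra h
    push Not at h
    have : (1 : _) ≤ A.valuation β ^ m := one_le_pow_of_one_le' h m
    rw [hβ] at this
    exact absurd hℓlt (not_lt.mpr this)
  have hβ0 : A.valuation β ≠ 0 := by
    intro h
    rw [h, zero_pow (by omega)] at hβ
    exact hℓ0 hβ.symm
  have hβnu : β ∈ A.nonunits := (ValuationSubring.mem_nonunits_iff A).mpr hβlt
  have h1 := hctx.unif β hβnu (fun σ => hfix σ σ.2)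
  have h2 : A.valuation β ≤ A.valuation ((ℓ : ℕ) : Qb) := by
    rw [← A.valuation_le_one_iff, map_div₀] at h1
    exact (div_le_one₀ (zero_lt_iff.mpr hℓ0)).mp h1
  -- `v(β)^m ≤ v(β)^2 < v(β) ≤ v(ℓ)`
  have h3 : A.valuation β ^ m ≤ A.valuation β ^ 2 := pow_le_pow_right_of_le_one' hβlt.le hm
  have h4 : A.valuation β ^ 2 < A.valuation β := by
    rw [pow_two]
    exact mul_lt_of_lt_one_right (zero_lt_iff.mpr hβ0) hβlt
  rw [hβ] at h3
  exact lt_irrefl _ (lt_of_le_of_lt h3 (lt_of_lt_of_le h4 h2))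

/-- an integer prime to `ℓ` is a unit at every place over `ℓ`. -/
theorem m59tw_val_int_eq_one (ℓ : ℕ) [hℓ : Fact ℓ.Prime] (A : ValuationSubring Qb)
    (hA : A.LiesOverPrime ℓ) (m : ℤ) (hm : ¬ (ℓ : ℤ) ∣ m) : A.valuation ((m : ℤ) : Qb) = 1 := by
  have hle : A.valuation ((m : ℤ) : Qb) ≤ 1 := by
    rw [A.valuation_le_one_iff]
    exact intCast_mem A m
  refine le_antisymm hle ?_
  by_contra hlt
  push Not at hlt
  have hcop : IsCoprime (m : ℤ) (ℓ : ℤ) :=
    ((Nat.prime_iff_prime_int.mp hℓ.out).coprime_iff_not_dvd.mpr hm).symm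
  obtain ⟨a, b, hab⟩ := hcop
  have h1 : ((a : ℤ) : Qb) * ((m : ℤ) : Qb) + ((b : ℤ) : Qb) * ((ℓ : ℕ) : Qb) = 1 := by
    have := congrArg (fun z : ℤ => (z : Qb)) hab
    push_cast at this
    exact this
  have hℓlt : A.valuation ((ℓ : ℕ) : Qb) < 1 := (ValuationSubring.mem_nonunits_iff A).mp hA
  have ha : A.valuation ((a : ℤ) : Qb) ≤ 1 := by
    rw [A.valuation_le_one_iff]; exact intCast_mem A a
  have hb : A.valuation ((b : ℤ) : Qb) ≤ 1 := by
    rw [A.valuation_le_one_iff]; exact intCast_mem A b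
  have h2 : A.valuation (((a : ℤ) : Qb) * ((m : ℤ) : Qb)) < 1 := by
    rw [map_mul]
    exact mul_lt_one_of_nonneg_of_lt_one_right ha zero_le hlt
  have h3 : A.valuation (((b : ℤ) : Qb) * ((ℓ : ℕ) : Qb)) < 1 := by
    rw [map_mul]
    exact mul_lt_one_of_nonneg_of_lt_one_right hb zero_le hℓlt
  have h4 : A.valuation (1 : Qb) < 1 := by
    rw [← h1]
    exact lt_of_le_of_lt (A.valuation.map_add _ _) (max_lt h2 h3)
  rw [map_one] at h4
  exact lt_irrefl _ h4

section cyc

variable {p : ℕ} [hp : Fact p.Prime] (P : ValuationSubring Qb)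

/-- **`ε̄² ≠ 1` on `I_P`** (`p ≥ 5`): some inertia element moves `ζ` to neither `ζ` nor `ζ⁻¹`. -/
theorem m59tw_exists_not_pm (hp5 : 5 ≤ p) (hP : P.LiesOverPrime p) {ζ : Qb}
    (hζ : IsPrimitiveRoot ζ p) :
    ∃ σ ∈ P.inertiaSubgroupIn ℚ, σ ζ ≠ ζ ∧ σ ζ ≠ ζ⁻¹ := by
  by_contra hall
  push Not at hall
  have hζ0 : ζ ≠ 0 := hζ.ne_zero hp.out.ne_zero
  have hne := s56fc_zeta_sub_one_ne (L := Qb) hp.out hζ
  -- `β = (ζ - 1)(ζ⁻¹ - 1)` is fixed by inertia
  set β : Qb := (ζ - 1) * (ζ⁻¹ - 1) with hβ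
  have hfix : ∀ σ ∈ P.inertiaSubgroupIn ℚ, σ β = β := by
    intro σ hσ
    rw [hβ, map_mul, map_sub, map_sub, map_one, map_inv₀]
    by_cases h1 : σ ζ = ζ
    · rw [h1]
    · rw [hall σ hσ h1, inv_inv, mul_comm]
  -- `v(ζ) = 1`
  have hvζ : P.valuation ζ = 1 := by
    have h1 : P.valuation ζ ^ p = 1 := by rw [← map_pow, hζ.pow_eq_one, map_one]
    rcases pow_eq_one_iff.mp h1 with h | h
    · exact h
    · exact absurd h hp.out.ne_zero
  have hvβ : P.valuation β = P.valuation (ζ - 1) ^ 2 := by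
    have e : ζ⁻¹ - 1 = -(ζ⁻¹ * (ζ - 1)) := by field_simp; ring
    rw [hβ, map_mul, e, Valuation.map_neg, map_mul, map_inv₀, hvζ, inv_one, one_mul, pow_two]
  have hm : 2 ≤ (p - 1) / 2 := by omega
  have hodd : (p - 1) / 2 * 2 = p - 1 := by
    have := hp.out.eq_one_or_self_of_dvd 2
    have h2 : ¬ 2 ∣ p := fun h => by
      rcases this h with h' | h'
      · omega
      · omega
    omega
  refine m59tw_no_root_unif p P hP β ((p - 1) / 2) hm hfix ?_
  rw [hvβ, ← pow_mul, mul_comm, hodd]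
  exact s56fc_val_zeta (A := P) hp.out hζ

/-- **the level-2 fundamental character has order `> 2(p-1)` on `I_P`.** -/
theorem m59tw_ss_moves (hp2 : p ≠ 2) (hP : P.LiesOverPrime p) {ϖ : Qb}
    (hϖ : ϖ ^ (p ^ 2 - 1) = -((p : ℕ) : Qb)) :
    ∃ σ : ↥(P.inertiaSubgroupIn ℚ), s56fc_theta P σ ϖ ^ (2 * (p - 1)) ≠ 1 := by
  by_contra hall
  push Not at hall
  have hv := s56fc_in_val P
  have hp0 : ((p : ℕ) : Qb) ≠ 0 := Nat.cast_ne_zero.mpr hp.out.ne_zero
  have hϖ0 : ϖ ≠ 0 := by
    intro h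
    rw [h, zero_pow] at hϖ
    · exact hp0 (neg_eq_zero.mp hϖ.symm)
    · have := hp.out.two_le
      have : 4 ≤ p ^ 2 := by nlinarith
      omega
  have hodd : p % 2 = 1 := by
    rcases hp.out.eq_two_or_odd with h | h
    · exact absurd h hp2
    · exact h
  set m : ℕ := (p + 1) / 2 with hm
  have hm2 : 2 ≤ m := by
    have := hp.out.two_le
    have : 3 ≤ p := by omega
    omega
  have hmp : m < p := by
    have := hp.out.two_le
    omega
  have hm1 : 1 ≤ m := by omega
  set π : Qb := ϖ ^ (2 * (p - 1)) with hπ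
  have hπ0 : π ≠ 0 := pow_ne_zero _ hϖ0
  have hπm : π ^ m = -((p : ℕ) : Qb) := by
    rw [hπ, ← pow_mul, ← hϖ]
    congr 1
    have h1 : 2 * (p - 1) * m = (p - 1) * (p + 1) := by
      have : 2 * m = p + 1 := by omega
      calc 2 * (p - 1) * m = (p - 1) * (2 * m) := by ring
        _ = (p - 1) * (p + 1) := by rw [this]
    rw [h1]
    have := hp.out.one_le
    zify [this, Nat.one_le_pow 2 p this]
    ring
  -- every inertia element fixes `π`
  have hfix : ∀ σ ∈ P.inertiaSubgroupIn ℚ, σ π = π := by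
    intro σ hσ
    have h1 : s56fc_theta P (⟨σ, hσ⟩ : ↥(P.inertiaSubgroupIn ℚ)) π = 1 := by
      rw [hπ, s56fc_theta_pow hv _ hϖ0]
      exact hall ⟨σ, hσ⟩
    rw [s56fc_theta_eq_one_iff hv _ hπ0] at h1
    have h1' : P.valuation (σ π - π) < P.valuation π := h1
    set u : Qb := σ π / π with hu
    have hum : u ^ m = 1 := by
      rw [hu, div_pow, ← map_pow, hπm, map_neg, map_natCast, div_self]
      exact neg_ne_zero.mpr hp0
    have hu1 : P.valuation (u - 1) < 1 := by
      have e : u - 1 = (σ π - π) / π := by rw [hu]; field_simp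
      rw [e, map_div₀]
      exact (div_lt_one₀ (zero_lt_iff.mpr ((map_ne_zero _).mpr hπ0))).mpr h1'
    by_contra hne
    have hu_ne : u ≠ 1 := by
      intro h
      apply hne
      rw [hu, div_eq_one_iff_eq hπ0] at h
      exact h
    -- `1 + u + ... + u^(m-1) = 0`
    have hgeom : ∑ i ∈ Finset.range m, u ^ i = 0 := by
      have h2 := mul_geom_sum u m
      rw [hum, sub_self] at h2
      rcases mul_eq_zero.mp h2 with h | h
      · exact absurd (sub_eq_zero.mp h) hu_ne
      · exact h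
    -- hence `m ≡ 0` modulo the maximal ideal
    have hui : ∀ i : ℕ, P.valuation (u ^ i - 1) < 1 := by
      intro i
      induction i with
      | zero => simp
      | succ i ih =>
        have e : u ^ (i + 1) - 1 = u ^ i * (u - 1) + (u ^ i - 1) := by ring
        have hule : P.valuation u ≤ 1 := by
          have : u = (u - 1) + 1 := by ring
          rw [this]
          refine le_trans (P.valuation.map_add _ _) (max_le hu1.le ?_)
          rw [map_one]
        rw [e]
        refine lt_of_le_of_lt (P.valuation.map_add _ _) (max_lt ?_ ih)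
        rw [map_mul]
        exact mul_lt_one_of_nonneg_of_lt_one_right (by rw [map_pow]; exact pow_le_one' hule i)
          zero_le hu1
    have hmval : P.valuation ((m : ℕ) : Qb) < 1 := by
      have e : ((m : ℕ) : Qb) = - ∑ i ∈ Finset.range m, (u ^ i - 1) := by
        rw [Finset.sum_sub_distrib, hgeom]
        simp
      rw [e, Valuation.map_neg]
      refine P.valuation.map_sum_lt (by simp) (fun i _ => hui i)
    have hmval1 : P.valuation (((m : ℕ) : ℤ) : Qb) = 1 := by
      apply m59tw_val_int_eq_one p P hP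
      intro hd
      have := Int.natCast_dvd_natCast.mp hd
      have := Nat.le_of_dvd (by omega) this
      omega
    rw [Int.cast_natCast] at hmval1
    rw [hmval1] at hmval
    exact lt_irrefl _ hmval
  refine m59tw_no_root_unif p P hP π m hm2 hfix ?_
  rw [← map_pow, hπm, Valuation.map_neg]

end cyc

end Fermat.Agent.M59
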