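import Mathlib
import Fermat.Agent.M59.HTW.Core
import Fermat.Agent.M59.HTW.Irr
import Fermat.Agent.M59.HTW.Unif
import Fermat.Agent.M59.HTW.Three
import Fermat.Agent.TW.Top.Transvection

/-!
# S59, block [G5], sub-cell hTW (helper23): the Taylor–Wiles hypothesis for `p = 3, 5`

Tag `m59tw_`.

`m59tw_main` : `ρ̄ : G_ℚ → GL₂(k)`, `k` finite of characteristic `p ∈ {3, 5}`, absolutely
irreducible, `det ρ̄` the mod-`p` cyclotomic character, unipotent inertia at every `q ≠ p`, at every
place `P ∣ p` ordinary (`m59tw_OrdAt`: every inertia element has the eigenvalue `1`) or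
supersingular (`m59tw_SSAt`: inertia acts through `χ ⊕ χ^p`, `χ` the fundamental character of
level `2` attached to `ϖ^(p²-1) = -p`), and, for `p = 3`, traces in the prime field
⟹ `twt_TWHyp ρ̄` (every index-`2` subgroup of `G_ℚ` acts irreducibly on `K ⊗ ρ̄`, for every `K`).

* a non-trivial unipotent inertia element at some `q ≠ p`: `twt_tw_of_transvection` (on main);
* otherwise `ρ̄` is unramified outside `p` (`m59tw_unram`): an index-`2` subgroup `G` with a stable
  line contains `ker ρ̄`, is open, and by Minkowski (`g1_eq_top` on main) misses some inertia group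
  `I_P`, `P ∣ p`; the core (L) makes the squares of the elements of `I_P \ G` scalar;
  - supersingular: `χ^(2(p-1)) = 1` on `I_P`, against `m59tw_ss_moves`;
  - ordinary: `ρ̄(I_P) = {1, c}`, `c² = 1`, so `ε̄² = 1` on `I_P`: impossible for `p = 5`
    (`m59tw_exists_not_pm`); for `p = 3` the image is a `2`-group generated by the conjugates of
    `c` (`m59tw_three_end`), hence fixes the fixed line of `c`.
-/

set_option autoImplicit false
set_option linter.unusedSectionVars false
set_option linter.style.haveILetI false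

open scoped TensorProduct

noncomputable section

namespace Fermat.Agent.M59

open Fermat.Agent.TW Fermat.Agent.S56

local notation "Qb" => AlgebraicClosure ℚ
local notation "GQ" => (AlgebraicClosure ℚ ≃ₐ[ℚ] AlgebraicClosure ℚ)

section defs

variable {k : Type} [Field k]

/-- **ordinary at `P`** (weak form): every inertia element at `P` has the eigenvalue `1`. -/
def m59tw_OrdAt (ρbar : ResidualGaloisRep k) (P : ValuationSubring Qb) : Prop :=
  ∀ σ ∈ P.inertiaSubgroupIn ℚ, LinearMap.det (ρbar.ρ σ - 1) = 0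

/-- **supersingular at `P`**: inertia acts through `χ ⊕ χ ^ p` with `ι ∘ χ = θ_ϖ`,
`ϖ ^ (p² - 1) = -p` (a sub-list of the conjuncts of `s56fc_SS` on main). -/
def m59tw_SSAt (p : ℕ) (ρbar : ResidualGaloisRep k) (P : ValuationSubring Qb) : Prop :=
  ∃ (e₁ e₂ : ρbar.V) (χ : ↥(P.inertiaSubgroupIn ℚ) →* kˣ) (ϖ : Qb),
    e₁ ≠ 0 ∧ e₂ ≠ 0 ∧ ϖ ^ (p ^ 2 - 1) = -((p : ℕ) : Qb) ∧
    (∀ σ : ↥(P.inertiaSubgroupIn ℚ), ρbar.ρ (σ : GQ) e₁ = ((χ σ : kˣ) : k) • e₁ ∧
      ρbar.ρ (σ : GQ) e₂ = ((χ σ : kˣ) : k) ^ p • e₂) ∧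
    ∃ (F : Subring k) (hF : ∀ σ : ↥(P.inertiaSubgroupIn ℚ), ((χ σ : kˣ) : k) ∈ F)
      (ι : ↥F →+* IsLocalRing.ResidueField ↥P),
      ∀ σ : ↥(P.inertiaSubgroupIn ℚ), ι ⟨((χ σ : kˣ) : k), hF σ⟩ = s56fc_theta P σ ϖ

end defs

section aux

variable {k : Type} [Field k]

/-- absolutely irreducible ⟹ irreducible. -/
theorem m59tw_irr_of_abs (ρbar : ResidualGaloisRep k) (habs : ρbar.IsAbsolutelyIrreducible) :
    ρbar.IsIrreducible := by
  classical
  intro W hW
  -- `W` is stable under all of `End_k V`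
  let S : Submodule k (Module.End k ρbar.V) :=
    { carrier := {f | ∀ x ∈ W, f x ∈ W}
      add_mem' := fun hf hg x hx => W.add_mem (hf x hx) (hg x hx)
      zero_mem' := fun x _ => W.zero_mem
      smul_mem' := fun a f hf x hx => W.smul_mem a (hf x hx) }
  have hS : S = ⊤ := by
    rw [eq_top_iff, ← Fermat.Agent.TW.twe_cg_span ρbar habs, Submodule.span_le]
    rintro _ ⟨σ, rfl⟩
    exact fun x hx => hW σ x hx
  have hall : ∀ f : Module.End k ρbar.V, ∀ x ∈ W, f x ∈ W := by
    intro f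
    have : f ∈ S := by rw [hS]; trivial
    exact this
  by_cases h0 : W = ⊥
  · exact Or.inl h0
  right
  obtain ⟨w, hwW, hw0⟩ := (Submodule.ne_bot_iff W).mp h0
  let b := Module.finBasis k ρbar.V
  obtain ⟨i, hi⟩ : ∃ i, b.repr w i ≠ 0 := by
    by_contra hall'
    push Not at hall'
    apply hw0
    apply b.repr.injective
    ext i
    rw [hall' i]
    simp
  rw [eq_top_iff, ← b.span_eq, Submodule.span_le]
  rintro _ ⟨j, rfl⟩
  let f : Module.End k ρbar.V := b.constr k (fun l => if l = i then b j else 0)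
  have hf : ∀ l, f (b l) = if l = i then b j else 0 := fun l => b.constr_basis k _ l
  have hF : f w = b.repr w i • b j := by
    conv_lhs => rw [← b.sum_repr w]
    rw [map_sum, Finset.sum_eq_single i]
    · rw [map_smul, hf, if_pos rfl]
    · intro l _ hl
      rw [map_smul, hf, if_neg hl, smul_zero]
    · intro h
      exact absurd (Finset.mem_univ i) h
  have h1 : b.repr w i • b j ∈ W := hF ▸ hall f w hwW
  have h2 := W.smul_mem (b.repr w i)⁻¹ h1
  rwa [smul_smul, inv_mul_cancel₀ hi, one_smul] at h2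

/-- Cayley–Hamilton in dimension `2`. -/
theorem m59tw_cayley {V : Type} [AddCommGroup V] [Module k V] (hV : Module.finrank k V = 2)
    (f : Module.End k V) :
    f * f = LinearMap.trace k V f • f - LinearMap.det f • (1 : Module.End k V) := by
  classical
  have : Module.Finite k V := Module.finite_of_finrank_eq_succ hV
  let e := Module.finBasisOfFinrankEq k V hV
  have h1 : f.charpoly = Polynomial.X ^ 2 - Polynomial.C (LinearMap.trace k V f) * Polynomial.X +
      Polynomial.C (LinearMap.det f) := by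
    rw [← LinearMap.charpoly_toMatrix f e, Matrix.charpoly_fin_two,
      LinearMap.trace_eq_matrix_trace k e f, LinearMap.det_toMatrix e f]
  have h2 := LinearMap.aeval_self_charpoly f
  rw [h1] at h2
  simp only [map_add, map_sub, map_mul, Polynomial.aeval_X, Polynomial.aeval_C,
    Algebra.algebraMap_eq_smul_one, smul_mul_assoc, one_mul, pow_two] at h2
  rw [← sub_eq_zero, ← h2]
  abel

/-- the mod-`3` cyclotomic character has square `1`. -/
theorem m59tw_det_sq_three [CharP k 3] (ρbar : ResidualGaloisRep k)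
    (hdet : ∀ (σ : GQ) (a : ℕ), (∀ μ : Qb, μ ^ 3 = 1 → σ μ = μ ^ a) →
      LinearMap.det (ρbar.ρ σ) = (a : k)) (σ : GQ) : LinearMap.det (ρbar.ρ σ) ^ 2 = 1 := by
  obtain ⟨ζ, hζ⟩ := HasEnoughRootsOfUnity.exists_primitiveRoot Qb 3
  obtain ⟨a, -, ha⟩ := s56fc_zeta_pow (by norm_num : 0 < 3) hζ σ
  have hd := hdet σ a ha
  have hunit : LinearMap.det (ρbar.ρ σ) ≠ 0 := by
    intro h
    have h1 : LinearMap.det (ρbar.ρ σ) * LinearMap.det (ρbar.ρ σ⁻¹) = 1 := by
      rw [← map_mul, ← map_mul, mul_inv_cancel, map_one, map_one]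
    rw [h, zero_mul] at h1
    exact zero_ne_one h1
  rw [hd] at hunit ⊢
  rw [CharP.cast_eq_mod k 3 a] at hunit ⊢
  have h3 : a % 3 < 3 := Nat.mod_lt _ (by norm_num)
  interval_cases h : a % 3
  · simp at hunit
  · simp
  · have : ((3 : ℕ) : k) = 0 := CharP.cast_eq_zero k 3
    push_cast at this ⊢
    linear_combination (1 : k) * this

end aux

section main

variable {p : ℕ} [hp : Fact p.Prime] {k : Type} [Field k] [Finite k] [CharP k p]
  (ρbar : ResidualGaloisRep k)

/-- **the unramified-outside-`p` case.** -/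
theorem m59tw_unram (hp35 : p = 3 ∨ p = 5) (habs : ρbar.IsAbsolutelyIrreducible)
    (hdet : ∀ (σ : GQ) (a : ℕ), (∀ μ : Qb, μ ^ p = 1 → σ μ = μ ^ a) →
      LinearMap.det (ρbar.ρ σ) = (a : k))
    (hunr : ∀ q : ℕ, q.Prime → q ≠ p → ρbar.IsUnramifiedAt q)
    (htr : p = 3 → ∀ σ : GQ, ∃ t : ℤ, LinearMap.trace k ρbar.V (ρbar.ρ σ) = (t : k))
    (hloc : ∀ P : ValuationSubring Qb, P.LiesOverPrime p →
      m59tw_OrdAt ρbar P ∨ m59tw_SSAt p ρbar P) : twt_TWHyp ρbar := by
  classical
  intro K _ _ G hG V hV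
  by_contra hcon
  rw [not_or] at hcon
  obtain ⟨hV0, hV1⟩ := hcon
  have hp2 : p ≠ 2 := by rcases hp35 with h | h <;> omega
  set r : GQ →* Module.End K (ρbar.baseChange K).V := (ρbar.baseChange K).ρ with hr
  have hrdef : ∀ σ : GQ, r σ = (ρbar.ρ σ).baseChange K := fun σ => rfl
  have hM : Module.finrank K (ρbar.baseChange K).V = 2 := (ρbar.baseChange K).finrank_eq
  haveI : FiniteDimensional K (ρbar.baseChange K).V := Module.finite_of_finrank_eq_succ hM
  have hirr : ∀ W : Submodule K (ρbar.baseChange K).V,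
      (∀ σ : GQ, ∀ x ∈ W, r σ x ∈ W) → W = ⊥ ∨ W = ⊤ :=
    fun W hW => m59tw_irr_baseChange ρbar habs K W hW
  haveI hnormal : G.Normal := Subgroup.normal_of_index_eq_two hG
  have hr1 : ∀ σ : GQ, ρbar.ρ σ = 1 → r σ = 1 := by
    intro σ hσ
    rw [hrdef, hσ, LinearMap.baseChange_one]
  have hr1' : ∀ σ : GQ, r σ = 1 → ρbar.ρ σ = 1 := fun σ hσ =>
    (twt_ci_baseChange_eq_one_iff ρbar (k' := K) _).mp hσ
  -- `ker ρ̄ ⊆ G`
  have hker : ∀ σ : GQ, ρbar.ρ σ = 1 → σ ∈ G := by
    intro σ hσ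
    by_contra hσG
    have hstab : ∀ τ : GQ, ∀ x ∈ V, r τ x ∈ V := by
      intro τ x hx
      by_cases hτ : τ ∈ G
      · exact hV τ hτ x hx
      · have hg : σ⁻¹ * τ ∈ G := m59tw_inv_mul_mem hG hσG hτ
        have hτeq : r τ = r (σ⁻¹ * τ) := by
          have : τ = σ * (σ⁻¹ * τ) := by group
          conv_lhs => rw [this, map_mul, hr1 σ hσ, one_mul]
        rw [hτeq]
        exact hV _ hg x hx
    rcases hirr V hstab with h | h
    · exact hV0 h
    · exact hV1 h
  -- `G` is open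
  obtain ⟨L, hL, hL1⟩ := ρbar.factorsThroughFiniteLevel
  haveI := hL
  have hopen : IsOpen (G : Set GQ) := by
    refine Subgroup.isOpen_mono (H₁ := L.fixingSubgroup) ?_
      (IntermediateField.fixingSubgroup_isOpen L)
    intro σ hσ
    exact hker σ (hL1 σ (fun x hx => hσ ⟨x, hx⟩))
  -- Minkowski: some inertia group over `p` is not inside `G`
  obtain ⟨P, hP, hPG⟩ : ∃ P : ValuationSubring Qb, P.LiesOverPrime p ∧
      ¬ P.inertiaSubgroupIn ℚ ≤ G := by
    by_contra hall
    push Not at hall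
    have htop : G = ⊤ := Fermat.Agent.S13.g1_eq_top G hopen (fun ℓ hℓ A hA => by
      by_cases hℓp : ℓ = p
      · subst hℓp
        exact hall A hA
      · intro σ hσ
        exact hker σ (hunr ℓ hℓ hℓp A hA σ hσ))
    rw [htop, Subgroup.index_top] at hG
    omega
  obtain ⟨τ₁, hτ₁I, hτ₁G⟩ := SetLike.not_le_iff_exists.mp hPG
  obtain ⟨e, he0, heV, hline, key⟩ := m59tw_struct hM hirr G hG V hV hV0 hV1
  rcases hloc P hP with hord | hss
  · -- the ordinary case
    have hordK : ∀ σ ∈ P.inertiaSubgroupIn ℚ, LinearMap.det (r σ - 1) = 0 := by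
      intro σ hσ
      have h1 : r σ - 1 = (ρbar.ρ σ - 1).baseChange K := by
        rw [LinearMap.baseChange_sub, LinearMap.baseChange_one]
        rfl
      rw [h1, LinearMap.det_baseChange, hord σ hσ, map_zero]
    have hsq : ∀ τ ∈ P.inertiaSubgroupIn ℚ, τ ∉ G → r τ * r τ = 1 := fun τ hτ hτG =>
      m59tw_sq_one hG hV heV hline (key τ hτG) (hordK τ hτ)
    have htriv : ∀ σ ∈ P.inertiaSubgroupIn ℚ, σ ∈ G → r σ = 1 := by
      intro σ hσ hσG
      exact m59tw_G_eq_one hG hV he0 heV hline hσG (key τ₁ hτ₁G) (hsq τ₁ hτ₁I hτ₁G)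
        (hsq (σ * τ₁) (mul_mem hσ hτ₁I) (m59tw_mul_not_mem hσG hτ₁G)) (hordK σ hσ)
    have hIP : ∀ σ ∈ P.inertiaSubgroupIn ℚ, ρbar.ρ σ = 1 ∨ ρbar.ρ σ = ρbar.ρ τ₁ := by
      intro σ hσ
      by_cases hσG : σ ∈ G
      · exact Or.inl (hr1' σ (htriv σ hσ hσG))
      · right
        have h2 := hr1' _ (htriv (τ₁⁻¹ * σ) (mul_mem (inv_mem hτ₁I) hσ)
          (m59tw_inv_mul_mem hG hτ₁G hσG))
        have : σ = τ₁ * (τ₁⁻¹ * σ) := by group
        conv_lhs => rw [this, map_mul, h2, mul_one]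
    have hτ₁sq : ρbar.ρ τ₁ * ρbar.ρ τ₁ = 1 := by
      rw [← map_mul]
      apply hr1'
      rw [map_mul]
      exact hsq τ₁ hτ₁I hτ₁G
    have hdetsq : ∀ σ ∈ P.inertiaSubgroupIn ℚ, LinearMap.det (ρbar.ρ σ) ^ 2 = 1 := by
      intro σ hσ
      rcases hIP σ hσ with h | h
      · rw [h, map_one, one_pow]
      · rw [h, pow_two, ← map_mul, hτ₁sq, map_one]
    rcases hp35 with h3 | h5
    · -- `p = 3`
      subst h3
      haveI : CharP K 3 := charP_of_injective_algebraMap (algebraMap k K).injective 3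
      -- the image has exponent `16`
      have h8 : ∀ σ ∈ G, r σ ^ 8 = 1 := by
        intro σ hσ
        obtain ⟨t, ht⟩ := htr rfl σ
        have hCH := m59tw_cayley ρbar.finrank_eq (ρbar.ρ σ)
        have hCHK : r σ * r σ = (algebraMap k K (t : k)) • r σ -
            (algebraMap k K (LinearMap.det (ρbar.ρ σ))) • (1 : Module.End K _) := by
          have := congrArg (fun f : Module.End k ρbar.V => f.baseChange K) hCH
          simp only [LinearMap.baseChange_mul, LinearMap.baseChange_sub,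
            LinearMap.baseChange_smul, LinearMap.baseChange_one] at this
          rw [hrdef, this, ht, algebraMap_smul, algebraMap_smul]
        refine m59tw_pow_eight hG hV he0 heV hline hσ (key τ₁ hτ₁G) ?_ ?_ hCHK
        · rw [map_intCast]
          have h := map_intCast (frobenius K 3) t
          rwa [frobenius_def] at h
        · rw [← map_pow, m59tw_det_sq_three ρbar hdet σ, map_one]
      have h16K : ∀ σ : GQ, r σ ^ 16 = 1 := by
        intro σ
        by_cases hσ : σ ∈ G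
        · calc r σ ^ 16 = (r σ ^ 8) ^ 2 := by rw [← pow_mul]
            _ = 1 := by rw [h8 σ hσ, one_pow]
        · have h := h8 (σ * σ) (Subgroup.mul_self_mem_of_index_two hG σ)
          calc r σ ^ 16 = (r σ * r σ) ^ 8 := by rw [← pow_two, ← pow_mul]
            _ = 1 := by rw [← map_mul]; exact h
      have h16 : ∀ σ : GQ, ρbar.ρ σ ^ 16 = 1 := by
        intro σ
        apply (twt_ci_baseChange_eq_one_iff ρbar (k' := K) _).mp
        rw [LinearMap.baseChange_pow]
        exact h16K σ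
      obtain ⟨w₀, hw₀, hw⟩ := m59tw_exists_fixed (hordK τ₁ hτ₁I)
      have hfix := m59tw_three_end ρbar K h16 hunr P hP τ₁ hIP w₀ hw
      -- the line `K w₀` is stable
      rcases hirr (Submodule.span K {w₀}) (by
        intro σ x hx
        obtain ⟨c, rfl⟩ := Submodule.mem_span_singleton.mp hx
        rw [map_smul, show r σ w₀ = w₀ from hfix σ]
        exact Submodule.smul_mem _ c (Submodule.mem_span_singleton_self w₀)) with h | h
      · exact hw₀ ((Submodule.span_singleton_eq_bot).mp h)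
      · have h1 := congrArg (fun W : Submodule K (ρbar.baseChange K).V => Module.finrank K W) h
        simp only [finrank_top] at h1
        rw [finrank_span_singleton hw₀, hM] at h1
        omega
    · -- `p = 5`
      subst h5
      obtain ⟨ζ, hζ⟩ := HasEnoughRootsOfUnity.exists_primitiveRoot Qb 5
      obtain ⟨σ, hσ, hσ1, hσ2⟩ := m59tw_exists_not_pm P (le_refl 5) hP hζ
      obtain ⟨a, haζ, ha⟩ := s56fc_zeta_pow (by norm_num : 0 < 5) hζ σ
      have h1 := hdetsq σ hσ
      rw [hdet σ a ha] at h1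
      have h2 : ((a ^ 2 : ℕ) : k) = ((1 : ℕ) : k) := by
        push_cast
        exact h1
      rw [CharP.natCast_eq_natCast k 5] at h2
      have h3 : (5 : ℤ) ∣ ((a : ℤ) - 1) * ((a : ℤ) + 1) := by
        have := (Nat.modEq_iff_dvd.mp h2.symm)
        push_cast at this
        have e : ((a : ℤ) - 1) * ((a : ℤ) + 1) = (a : ℤ) ^ 2 - 1 := by ring
        rw [e]
        exact this
      have h5prime : Prime (5 : ℤ) := by norm_num
      rcases h5prime.dvd_or_dvd h3 with h | h
      · apply hσ1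
        rw [haζ]
        have h4 : ζ ^ ((a : ℤ) - 1) = 1 := (hζ.zpow_eq_one_iff_dvd _).mpr (by exact_mod_cast h)
        have h6 : ζ ^ (a : ℤ) = ζ ^ ((a : ℤ) - 1) * ζ := by
          rw [← zpow_add_one₀ (hζ.ne_zero (by norm_num))]
          congr 1
          ring
        rw [← zpow_natCast, h6, h4, one_mul]
      · apply hσ2
        rw [haζ]
        have h4 : ζ ^ ((a : ℤ) + 1) = 1 := (hζ.zpow_eq_one_iff_dvd _).mpr (by exact_mod_cast h)
        have h6 : ζ ^ (a : ℤ) = ζ ^ ((a : ℤ) + 1) * ζ⁻¹ := by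
          rw [← zpow_sub_one₀ (hζ.ne_zero (by norm_num))]
          congr 1
          ring
        rw [← zpow_natCast, h6, h4, one_mul]
  · -- the supersingular case
    obtain ⟨e₁, e₂, χ, ϖ, he₁, he₂, hϖ, hact, F, hF, ι, hι⟩ := hss
    have hinj : Function.Injective (TensorProduct.mk k K ρbar.V 1) :=
      Module.Flat.tensorProduct_mk_injective k ρbar.V K
    have hne : ∀ v : ρbar.V, v ≠ 0 → ((1 : K) ⊗ₜ[k] v : (ρbar.baseChange K).V) ≠ 0 := by
      intro v hv h
      apply hv
      apply hinj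
      rw [map_zero]
      exact h
    -- an eigenvector over `k` gives an eigenvector over `K`
    have heig : ∀ (σ : GQ) (v : ρbar.V) (x : k), ρbar.ρ σ v = x • v →
        r σ ((1 : K) ⊗ₜ[k] v) = algebraMap k K x • ((1 : K) ⊗ₜ[k] v) := by
      intro σ v x h
      rw [hrdef, LinearMap.baseChange_tmul, h, TensorProduct.tmul_smul, algebraMap_smul]
    have hχ1 : ∀ (τ : GQ) (hτ : τ ∈ P.inertiaSubgroupIn ℚ), τ ∉ G →
        χ ⟨τ, hτ⟩ ^ (2 * (p - 1)) = 1 := by
      intro τ hτ hτG
      obtain ⟨a, ha⟩ := m59tw_sq_scalar hG hV heV hline (key τ hτG)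
      set x : k := ((χ ⟨τ, hτ⟩ : kˣ) : k) with hx
      have hx0 : x ≠ 0 := Units.ne_zero _
      have hval : ∀ (v : ρbar.V) (y : k), v ≠ 0 → ρbar.ρ τ v = y • v →
          algebraMap k K (y * y) = a := by
        intro v y hv hy
        have h1 := heig τ v y hy
        have h2 : (r τ * r τ) ((1 : K) ⊗ₜ[k] v) =
            algebraMap k K (y * y) • ((1 : K) ⊗ₜ[k] v) := by
          rw [Module.End.mul_apply, h1, map_smul, h1, smul_smul, map_mul]
        rw [ha, LinearMap.smul_apply, Module.End.one_apply] at h2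
        exact (smul_left_injective K (hne v hv) h2).symm
      have h1 := hval e₁ x he₁ (hact ⟨τ, hτ⟩).1
      have h2 := hval e₂ (x ^ p) he₂ (hact ⟨τ, hτ⟩).2
      have h3 : x * x = x ^ p * x ^ p := (algebraMap k K).injective (h1.trans h2.symm)
      have h4 : x ^ (2 * (p - 1)) = 1 := by
        have hp1 : 1 ≤ p := hp.out.one_le
        have e : x ^ p * x ^ p = x ^ (2 * (p - 1)) * (x * x) := by
          rw [← pow_add, ← pow_two, ← pow_add]
          congr 1
          omega
        rw [e] at h3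
        have hxx : x * x ≠ 0 := mul_ne_zero hx0 hx0
        exact (mul_right_cancel₀ hxx (by rw [one_mul]; exact h3)).symm
      apply Units.ext
      rw [Units.val_pow_eq_pow_val, Units.val_one]
      exact h4
    have hχall : ∀ σ : ↥(P.inertiaSubgroupIn ℚ), χ σ ^ (2 * (p - 1)) = 1 := by
      rintro ⟨σ, hσ⟩
      by_cases hσG : σ ∈ G
      · have h1 := hχ1 (σ * τ₁) (mul_mem hσ hτ₁I) (m59tw_mul_not_mem hσG hτ₁G)
        have h2 := hχ1 τ₁ hτ₁I hτ₁G
        have h3 : (⟨σ * τ₁, mul_mem hσ hτ₁I⟩ : ↥(P.inertiaSubgroupIn ℚ)) =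
            ⟨σ, hσ⟩ * ⟨τ₁, hτ₁I⟩ := rfl
        rw [h3, map_mul, mul_pow, h2, mul_one] at h1
        exact h1
      · exact hχ1 σ hσ hσG
    obtain ⟨σ, hσ⟩ := m59tw_ss_moves P hp2 hP hϖ
    apply hσ
    rw [← hι σ, ← map_pow]
    have : (⟨((χ σ : kˣ) : k), hF σ⟩ : ↥F) ^ (2 * (p - 1)) = 1 := by
      apply Subtype.ext
      rw [Subring.coe_pow, Subring.coe_one]
      show ((χ σ : kˣ) : k) ^ (2 * (p - 1)) = 1
      rw [← Units.val_pow_eq_pow_val, hχall σ, Units.val_one]
    rw [this, map_one]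

/-- **hTW** for `p ∈ {3, 5}`: absolutely irreducible, cyclotomic determinant, unipotent inertia
outside `p`, ordinary or supersingular at `p` (and, for `p = 3`, traces in the prime field)
⟹ the Taylor–Wiles hypothesis. -/
theorem m59tw_main (hp35 : p = 3 ∨ p = 5) (habs : ρbar.IsAbsolutelyIrreducible)
    (hdet : ∀ (σ : GQ) (a : ℕ), (∀ μ : Qb, μ ^ p = 1 → σ μ = μ ^ a) →
      LinearMap.det (ρbar.ρ σ) = (a : k))
    (hunip : ∀ q : ℕ, q.Prime → q ≠ p → ∀ P : ValuationSubring Qb, P.LiesOverPrime q →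
      ∀ σ ∈ P.inertiaSubgroupIn ℚ, (ρbar.ρ σ - 1) * (ρbar.ρ σ - 1) = 0)
    (htr : p = 3 → ∀ σ : GQ, ∃ t : ℤ, LinearMap.trace k ρbar.V (ρbar.ρ σ) = (t : k))
    (hloc : ∀ P : ValuationSubring Qb, P.LiesOverPrime p →
      m59tw_OrdAt ρbar P ∨ m59tw_SSAt p ρbar P) : twt_TWHyp ρbar := by
  by_cases hram : ∃ (q : ℕ) (_ : q.Prime) (_ : q ≠ p) (P : ValuationSubring Qb)
      (_ : P.LiesOverPrime q) (σ : GQ) (_ : σ ∈ P.inertiaSubgroupIn ℚ), ρbar.ρ σ ≠ 1
  · obtain ⟨q, hq, hqp, P, hP, σ, hσ, hne⟩ := hram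
    have h2 : (2 : k) ≠ 0 := by
      intro h
      have h' : ((2 : ℕ) : k) = 0 := by exact_mod_cast h
      rw [CharP.cast_eq_zero_iff k p] at h'
      have := Nat.le_of_dvd (by norm_num) h'
      rcases hp35 with h3 | h5 <;> omega
    exact (twt_tw_of_transvection ρbar h2 (m59tw_irr_of_abs ρbar habs) σ hne
      (hunip q hq hqp P hP σ hσ)).2
  · push Not at hram
    exact m59tw_unram ρbar hp35 habs hdet
      (fun q hq hqp P hP σ hσ => hram q hq hqp P hP σ hσ) htr hloc

end main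

end Fermat.Agent.M59
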