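import Mathlib
import Fermat.Agent.M59.HTW.Main
import Fermat.Agent.S56.Cheb.Exists

/-!
# S59, block [G5], sub-cell hTW (helper23): converters from the adic lift to the residual inputs

Tag `m59tw_`.  `ρ : GaloisRepAdic 𝒪`, `ρ̄ = ρ.residual`.

* `m59tw_hdet_of`    : `ρ.DetIsCyclotomic p` ⟹ the `hdet` input of `m59tw_main` for `ρ̄`;
* `m59tw_hunip_of`   : `ρ.IsUnipotentOnInertiaAt q` ⟹ `(ρ̄ σ - 1)² = 0` on inertia at `q`;
* `m59tw_ordAt_of`   : `ρ.IsOrdinaryAt p` ⟹ `m59tw_OrdAt ρ̄ P` at every `P ∣ p`;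
* `m59tw_tr_of_frob` : traces of Frobenius elements outside a finite set are integers ⟹ every
                       trace of `ρ̄` is an integer (Chebotarev `s56c_exists` on main).
-/

set_option autoImplicit false
set_option linter.unusedSectionVars false
set_option linter.style.haveILetI false

open scoped TensorProduct
open Polynomial

noncomputable section

namespace Fermat.Agent.M59

open Fermat.Agent.TW Fermat.Agent.S56

local notation "Qb" => AlgebraicClosure ℚ
local notation "GQ" => (AlgebraicClosure ℚ ≃ₐ[ℚ] AlgebraicClosure ℚ)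

section adic

variable {𝒪 : Type} [CommRing 𝒪] [IsLocalRing 𝒪] (ρ : GaloisRepAdic 𝒪)

theorem m59tw_residual_apply (σ : GQ) :
    ρ.residual.ρ σ = (ρ.ρ σ).baseChange (IsLocalRing.ResidueField 𝒪) := rfl

/-- the determinant of the residual representation. -/
theorem m59tw_hdet_of (p : ℕ) (h : ρ.DetIsCyclotomic p) (σ : GQ) (a : ℕ)
    (ha : ∀ μ : Qb, μ ^ p = 1 → σ μ = μ ^ a) :
    LinearMap.det (ρ.residual.ρ σ) = (a : IsLocalRing.ResidueField 𝒪) := by
  have h1 := h.2 1 σ a (by simpa using ha)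
  rw [pow_one] at h1
  have h2 : LinearMap.det (ρ.ρ σ) - (a : 𝒪) ∈ IsLocalRing.maximalIdeal 𝒪 := by
    have hle : Ideal.span {((p : ℕ) : 𝒪)} ≤ IsLocalRing.maximalIdeal 𝒪 :=
      (Ideal.span_singleton_le_iff_mem _).mpr h.1
    exact hle h1
  have h3 := (IsLocalRing.residue_eq_zero_iff _).mpr h2
  rw [map_sub, sub_eq_zero, map_natCast] at h3
  have key : LinearMap.det ((ρ.ρ σ).baseChange (IsLocalRing.ResidueField 𝒪)) =
      algebraMap 𝒪 (IsLocalRing.ResidueField 𝒪) (LinearMap.det (ρ.ρ σ)) :=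
    LinearMap.det_baseChange _
  rw [IsLocalRing.ResidueField.algebraMap_eq, h3] at key
  exact key

/-- unipotent inertia passes to the residual representation. -/
theorem m59tw_hunip_of (q : ℕ) (h : ρ.IsUnipotentOnInertiaAt q) (P : ValuationSubring Qb)
    (hP : P.LiesOverPrime q) (σ : GQ) (hσ : σ ∈ P.inertiaSubgroupIn ℚ) :
    (ρ.residual.ρ σ - 1) * (ρ.residual.ρ σ - 1) = 0 := by
  have h1 := h P hP σ hσ
  have key : LinearMap.charpoly ((ρ.ρ σ).baseChange (IsLocalRing.ResidueField 𝒪)) =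
      (X - 1) ^ 2 := by
    rw [LinearMap.charpoly_baseChange, h1]
    simp
  have h3 := LinearMap.aeval_self_charpoly ((ρ.ρ σ).baseChange (IsLocalRing.ResidueField 𝒪))
  rw [key] at h3
  have h4 : ((ρ.ρ σ).baseChange (IsLocalRing.ResidueField 𝒪) - 1) *
      ((ρ.ρ σ).baseChange (IsLocalRing.ResidueField 𝒪) - 1) = 0 := by
    simpa [pow_two] using h3
  exact h4

/-- ordinary lift ⟹ every inertia element at `P ∣ p` has the eigenvalue `1` residually. -/
theorem m59tw_ordAt_of (p : ℕ) (h : ρ.IsOrdinaryAt p) (P : ValuationSubring Qb)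
    (hP : P.LiesOverPrime p) : m59tw_OrdAt ρ.residual P := by
  intro σ hσ
  obtain ⟨L, ⟨b, hb⟩, -, hI⟩ := h P hP
  have key : LinearMap.det ((ρ.ρ σ - 1).baseChange (IsLocalRing.ResidueField 𝒪)) =
      algebraMap 𝒪 (IsLocalRing.ResidueField 𝒪) (LinearMap.det (ρ.ρ σ - 1)) :=
    LinearMap.det_baseChange _
  rw [LinearMap.baseChange_sub, LinearMap.baseChange_one] at key
  have h2 : LinearMap.det (ρ.ρ σ - 1) = 0 := by
    rw [← LinearMap.det_toMatrix b, Matrix.det_fin_two]
    have hrow : ∀ j : Fin 2, LinearMap.toMatrix b b (ρ.ρ σ - 1) 1 j = 0 := by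
      intro j
      rw [LinearMap.toMatrix_apply]
      have hm : (ρ.ρ σ - 1) (b j) ∈ L := by
        rw [LinearMap.sub_apply, Module.End.one_apply]
        exact hI σ hσ (b j)
      rw [hb] at hm
      obtain ⟨c, hc⟩ := Submodule.mem_span_singleton.mp hm
      rw [← hc, map_smul, Finsupp.smul_apply, Module.Basis.repr_self,
        Finsupp.single_eq_of_ne (by decide), smul_zero]
    rw [hrow 0, hrow 1]
    ring
  rw [h2, map_zero] at key
  exact key

end adic

section cheb

variable {k : Type} [Field k]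

/-- the characteristic polynomial in dimension `2`. -/
theorem m59tw_charpoly_two {V : Type} [AddCommGroup V] [Module k V] [Module.Finite k V]
    (hV : Module.finrank k V = 2) (f : Module.End k V) :
    f.charpoly = X ^ 2 - C (LinearMap.trace k V f) * X + C (LinearMap.det f) := by
  classical
  let e := Module.finBasisOfFinrankEq k V hV
  rw [← LinearMap.charpoly_toMatrix f e, Matrix.charpoly_fin_two,
    LinearMap.trace_eq_matrix_trace k e f, LinearMap.det_toMatrix e f]

/-- **traces are integers** as soon as they are at the Frobenius elements outside a finite set. -/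
theorem m59tw_tr_of_frob (ρbar : ResidualGaloisRep k) (S : Finset ℕ)
    (h : ∀ ℓ : ℕ, ℓ.Prime → ℓ ∉ S → ∀ A : ValuationSubring Qb, A.LiesOverPrime ℓ →
      ∀ τ : GQ, A.IsFrobeniusAt τ ℓ → ∃ t d : ℤ,
        LinearMap.charpoly (ρbar.ρ τ) = X ^ 2 - C (t : k) * X + C (d : k))
    (σ : GQ) : ∃ t : ℤ, LinearMap.trace k ρbar.V (ρbar.ρ σ) = (t : k) := by
  obtain ⟨L, hL, hL1⟩ := ρbar.factorsThroughFiniteLevel
  obtain ⟨ℓ, A, τ, hℓ, hℓS, hA, hτ, hτσ⟩ := s56c_exists L hL S σ
  have heq : ρbar.ρ τ = ρbar.ρ σ := by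
    have h1 : ρbar.ρ (σ⁻¹ * τ) = 1 := by
      apply hL1
      intro x hx
      show σ⁻¹ (τ x) = x
      rw [hτσ x hx]
      exact σ.symm_apply_apply x
    have : τ = σ * (σ⁻¹ * τ) := by group
    rw [this, map_mul, h1, mul_one]
  obtain ⟨t, d, htd⟩ := h ℓ hℓ hℓS A hA τ hτ
  refine ⟨t, ?_⟩
  rw [heq, m59tw_charpoly_two ρbar.finrank_eq] at htd
  have h1 := congrArg (fun q : k[X] => q.coeff 1) htd
  simp only [coeff_add, coeff_sub, coeff_X_pow, coeff_C_mul, coeff_X_one, coeff_C] at h1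
  simpa using h1

end cheb

end Fermat.Agent.M59
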