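import Mathlib
import Fermat.Agent.M59.HTW.Conv
import Fermat.Agent.S56.Flat.Class

/-!
# S59, block [G5], sub-cell hTW (helper23): from a flat lift to the local shape of `ρ̄` at `p`

Tag `m59tw_`.  `ρ : GaloisRepAdic 𝒪`, `k = 𝒪 / 𝔪` finite of characteristic `p`, `b` a basis of
`ρ.V`.

* `m59tw_B ρ b`        : the matrix representation `G_ℚ →* M₂(k)` of `ρ̄` in the basis `b`;
* `m59tw_order`        : `ρ.IsFlatAt p` ⟹ an order on `s56fi_Mod (m59tw_B ρ b)` for `I_P`
                         (main's general bridge `s56fb_main` at `I = 𝔪`, transported along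
                         `k² ≃ V / 𝔪 V`);
* `m59tw_shape_of_flat` : `ρ` flat at `p`, `det ρ` cyclotomic, eigenvalues of `ρ̄` in `k`
                         ⟹ `m59tw_OrdAt ρ̄ P ∨ m59tw_SSAt p ρ̄ P` at every `P ∣ p`
                         (main's classification `s56fc_class`).
-/

set_option autoImplicit false
set_option linter.unusedSectionVars false
set_option linter.style.haveILetI false

open scoped TensorProduct
open Polynomial Matrix

noncomputable section

namespace Fermat.Agent.M59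

open Fermat.Agent.TW Fermat.Agent.S56 Fermat.Agent.MZ Fermat.Agent.FF Fermat.Agent.S53

local notation "Qb" => AlgebraicClosure ℚ
local notation "GQ" => (AlgebraicClosure ℚ ≃ₐ[ℚ] AlgebraicClosure ℚ)

section frame

variable {𝒪 : Type} [CommRing 𝒪] [IsLocalRing 𝒪] (ρ : GaloisRepAdic 𝒪)
  (b : Module.Basis (Fin 2) 𝒪 ρ.V)

/-- the matrix representation of the residual representation in the basis `b`. -/
def m59tw_B : GQ →* Matrix (Fin 2) (Fin 2) (IsLocalRing.ResidueField 𝒪) where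
  toFun σ := (LinearMap.toMatrix b b (ρ.ρ σ)).map (IsLocalRing.residue 𝒪)
  map_one' := by
    rw [map_one, Module.End.one_eq_id, LinearMap.toMatrix_id]
    ext i j
    rw [Matrix.map_apply]
    by_cases h : i = j
    · rw [h, Matrix.one_apply_eq, Matrix.one_apply_eq, map_one]
    · rw [Matrix.one_apply_ne h, Matrix.one_apply_ne h, map_zero]
  map_mul' σ τ := by
    rw [map_mul, Module.End.mul_eq_comp, LinearMap.toMatrix_comp b b b]
    exact Matrix.map_mul

theorem m59tw_B_apply (σ : GQ) :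
    m59tw_B ρ b σ = (LinearMap.toMatrix b b (ρ.ρ σ)).map (IsLocalRing.residue 𝒪) := rfl

/-- the coordinates modulo `𝔪`. -/
def m59tw_coord : ρ.V →+ s56fi_Mod (m59tw_B ρ b) where
  toFun v := fun i => IsLocalRing.residue 𝒪 (b.repr v i)
  map_zero' := by
    funext i
    simp
    rfl
  map_add' v w := by
    funext i
    simp
    rfl

theorem m59tw_coord_apply (v : ρ.V) (i : Fin 2) :
    s56fi_vec _ (m59tw_coord ρ b v) i = IsLocalRing.residue 𝒪 (b.repr v i) := rfl

/-- equivariance of the coordinates. -/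
theorem m59tw_coord_smul (σ : GQ) (v : ρ.V) :
    m59tw_coord ρ b (ρ.ρ σ v) = σ • m59tw_coord ρ b v := by
  funext i
  show IsLocalRing.residue 𝒪 (b.repr (ρ.ρ σ v) i) =
    ((m59tw_B ρ b σ).mulVec (fun j => IsLocalRing.residue 𝒪 (b.repr v j))) i
  rw [← LinearMap.toMatrix_mulVec_repr b b (ρ.ρ σ) v, RingHom.map_mulVec, m59tw_B_apply]
  rfl

/-- the kernel of the coordinates is `𝔪 V`. -/
theorem m59tw_coord_eq_zero_iff (v : ρ.V) :
    m59tw_coord ρ b v = 0 ↔
      v ∈ (IsLocalRing.maximalIdeal 𝒪) • (⊤ : Submodule 𝒪 ρ.V) := by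
  constructor
  · intro h
    have hi : ∀ i, b.repr v i ∈ IsLocalRing.maximalIdeal 𝒪 := by
      intro i
      have := congrFun h i
      exact (IsLocalRing.residue_eq_zero_iff _).mp this
    rw [← b.sum_repr v]
    exact Submodule.sum_mem _ (fun i _ => Submodule.smul_mem_smul (hi i) Submodule.mem_top)
  · intro h
    funext i
    show IsLocalRing.residue 𝒪 (b.repr v i) = 0
    rw [IsLocalRing.residue_eq_zero_iff]
    refine Submodule.smul_induction_on
      (p := fun v => b.repr v i ∈ IsLocalRing.maximalIdeal 𝒪) h ?_ ?_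
    · intro a ha x _
      rw [map_smul, Finsupp.smul_apply, smul_eq_mul]
      exact Ideal.mul_mem_right _ _ ha
    · intro x y hx hy
      rw [map_add, Finsupp.add_apply]
      exact Ideal.add_mem _ hx hy

/-- a section of the coordinates. -/
def m59tw_sec (w : s56fi_Mod (m59tw_B ρ b)) : ρ.V :=
  ∑ i, (Function.surjInv IsLocalRing.residue_surjective (s56fi_vec _ w i) : 𝒪) • b i

theorem m59tw_coord_sec (w : s56fi_Mod (m59tw_B ρ b)) : m59tw_coord ρ b (m59tw_sec ρ b w) = w := by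
  funext i
  show IsLocalRing.residue 𝒪 (b.repr (m59tw_sec ρ b w) i) = s56fi_vec _ w i
  unfold m59tw_sec
  rw [map_sum, Finsupp.finsetSum_apply]
  simp only [map_smul, Module.Basis.repr_self, Finsupp.smul_apply, smul_eq_mul]
  rw [Finset.sum_eq_single i]
  · rw [Finsupp.single_eq_same, mul_one]
    exact Function.surjInv_eq IsLocalRing.residue_surjective _
  · intro j _ hj
    rw [Finsupp.single_eq_of_ne hj.symm, mul_zero]
  · intro h
    exact absurd (Finset.mem_univ i) h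

/-- `k² → V / 𝔪 V`, additive, injective, equivariant. -/
def m59tw_iota : s56fi_Mod (m59tw_B ρ b) →+ s56fb_M ρ (IsLocalRing.maximalIdeal 𝒪) :=
  AddMonoidHom.mk' (fun w => Submodule.Quotient.mk (m59tw_sec ρ b w)) (by
    intro w w'
    rw [← Submodule.Quotient.mk_add, Submodule.Quotient.eq, ← m59tw_coord_eq_zero_iff ρ b,
      map_sub, map_add, m59tw_coord_sec, m59tw_coord_sec, m59tw_coord_sec, sub_self])

theorem m59tw_iota_apply (w : s56fi_Mod (m59tw_B ρ b)) :
    m59tw_iota ρ b w = Submodule.Quotient.mk (m59tw_sec ρ b w) := rfl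

theorem m59tw_iota_injective : Function.Injective (m59tw_iota ρ b) := by
  intro w w' h
  rw [m59tw_iota_apply, m59tw_iota_apply, Submodule.Quotient.eq,
    ← m59tw_coord_eq_zero_iff ρ b, map_sub, m59tw_coord_sec, m59tw_coord_sec, sub_eq_zero] at h
  exact h

theorem m59tw_iota_smul (σ : GQ) (w : s56fi_Mod (m59tw_B ρ b)) :
    m59tw_iota ρ b (σ • w) =
      ρ.levelAction (IsLocalRing.maximalIdeal 𝒪) σ (m59tw_iota ρ b w) := by
  rw [m59tw_iota_apply, m59tw_iota_apply, s56fb_levelAction_mk, Submodule.Quotient.eq,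
    ← m59tw_coord_eq_zero_iff ρ b, map_sub, m59tw_coord_sec, m59tw_coord_smul,
    m59tw_coord_sec, sub_self]

end frame

section order

variable {𝒪 : Type} [CommRing 𝒪] [IsLocalRing 𝒪] [Finite (IsLocalRing.ResidueField 𝒪)]
  (ρ : GaloisRepAdic 𝒪) (b : Module.Basis (Fin 2) 𝒪 ρ.V)

/-- **the order of the residual module of a flat representation.** -/
theorem m59tw_order (p : ℕ) [Fact p.Prime] (hflat : ρ.IsFlatAt p) (P : ValuationSubring ff_Qb)
    (hP : P.LiesOverPrime p) :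
    ∃ H : Subalgebra ↥(ffi_O P ↥(ffi_L P)) (s56fi_Mod (m59tw_B ρ b) → ff_Qb),
      mzo_IsOrder P ↥(P.inertiaSubgroupIn ℚ) (s56fi_Mod (m59tw_B ρ b)) H := by
  letI := s56fb_levelAct ρ (IsLocalRing.maximalIdeal 𝒪)
  have hfin : Finite (𝒪 ⧸ IsLocalRing.maximalIdeal 𝒪) :=
    inferInstanceAs (Finite (IsLocalRing.ResidueField 𝒪))
  obtain ⟨HP, hHP⟩ := s56fb_main ρ p hflat (IsLocalRing.maximalIdeal 𝒪) hfin P hP
  have hιe : ∀ (σ : ↥(P.inertiaSubgroupIn ℚ)) (x : s56fi_Mod (m59tw_B ρ b)),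
      m59tw_iota ρ b (σ • x) = σ • m59tw_iota ρ b x := by
    intro σ x
    exact m59tw_iota_smul ρ b (σ : ff_GQ) x
  exact ⟨mzo_restr (⇑(m59tw_iota ρ b)) HP,
    mzo_restr_isOrder (m59tw_iota ρ b) (m59tw_iota_injective ρ b) hιe hHP⟩

end order

section shape

variable {𝒪 : Type} [CommRing 𝒪] [IsLocalRing 𝒪] (ρ : GaloisRepAdic 𝒪)
  (b : Module.Basis (Fin 2) 𝒪 ρ.V)

/-- the basis of the residual space. -/
def m59tw_bk : Module.Basis (Fin 2) (IsLocalRing.ResidueField 𝒪)
    (IsLocalRing.ResidueField 𝒪 ⊗[𝒪] ρ.V) :=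
  Algebra.TensorProduct.basis (IsLocalRing.ResidueField 𝒪) b

/-- the vector of the residual space with given coordinates. -/
def m59tw_vec (u : Fin 2 → IsLocalRing.ResidueField 𝒪) : ρ.residual.V :=
  (m59tw_bk ρ b).equivFun.symm u

theorem m59tw_toMatrix_residual (σ : GQ) :
    LinearMap.toMatrix (m59tw_bk ρ b) (m59tw_bk ρ b)
      ((ρ.ρ σ).baseChange (IsLocalRing.ResidueField 𝒪)) = m59tw_B ρ b σ := by
  unfold m59tw_bk
  rw [LinearMap.toMatrix_baseChange, IsLocalRing.ResidueField.algebraMap_eq, m59tw_B_apply]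

/-- the action on coordinate vectors. -/
theorem m59tw_residual_vec (σ : GQ) (u : Fin 2 → IsLocalRing.ResidueField 𝒪) :
    ρ.residual.ρ σ (m59tw_vec ρ b u) = m59tw_vec ρ b (m59tw_B ρ b σ *ᵥ u) := by
  have h1 := LinearMap.toMatrix_mulVec_repr (m59tw_bk ρ b) (m59tw_bk ρ b)
    ((ρ.ρ σ).baseChange (IsLocalRing.ResidueField 𝒪)) ((m59tw_bk ρ b).equivFun.symm u)
  rw [m59tw_toMatrix_residual] at h1
  have h2 : ((m59tw_bk ρ b).repr ((m59tw_bk ρ b).equivFun.symm u) : Fin 2 → _) = u := by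
    have := (m59tw_bk ρ b).equivFun.apply_symm_apply u
    exact this
  rw [h2] at h1
  have h3 : (m59tw_bk ρ b).equivFun.symm (m59tw_B ρ b σ *ᵥ u) =
      (ρ.ρ σ).baseChange (IsLocalRing.ResidueField 𝒪) ((m59tw_bk ρ b).equivFun.symm u) := by
    rw [h1]
    exact (m59tw_bk ρ b).equivFun.symm_apply_apply _
  exact h3.symm

theorem m59tw_vec_ne_zero {u : Fin 2 → IsLocalRing.ResidueField 𝒪} (hu : u ≠ 0) :
    m59tw_vec ρ b u ≠ 0 := by
  intro h
  apply hu
  have h' : (m59tw_bk ρ b).equivFun.symm u = 0 := h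
  exact (LinearEquiv.map_eq_zero_iff _).mp h'

theorem m59tw_vec_smul (c : IsLocalRing.ResidueField 𝒪) (u : Fin 2 → IsLocalRing.ResidueField 𝒪) :
    m59tw_vec ρ b (c • u) = c • m59tw_vec ρ b u :=
  map_smul (m59tw_bk ρ b).equivFun.symm c u

/-- the determinant of `ρ̄ σ - 1` in coordinates. -/
theorem m59tw_det_sub_one (σ : GQ) :
    LinearMap.det (ρ.residual.ρ σ - 1) = (m59tw_B ρ b σ - 1).det := by
  have key : LinearMap.det ((ρ.ρ σ).baseChange (IsLocalRing.ResidueField 𝒪) - 1) =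
      (LinearMap.toMatrix (m59tw_bk ρ b) (m59tw_bk ρ b)
        ((ρ.ρ σ).baseChange (IsLocalRing.ResidueField 𝒪) - 1)).det :=
    (LinearMap.det_toMatrix (m59tw_bk ρ b) _).symm
  have e : LinearMap.toMatrix (m59tw_bk ρ b) (m59tw_bk ρ b)
      ((ρ.ρ σ).baseChange (IsLocalRing.ResidueField 𝒪) - 1) =
      LinearMap.toMatrix (m59tw_bk ρ b) (m59tw_bk ρ b)
        ((ρ.ρ σ).baseChange (IsLocalRing.ResidueField 𝒪)) -
      LinearMap.toMatrix (m59tw_bk ρ b) (m59tw_bk ρ b) 1 := by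
    ext i j
    simp only [LinearMap.toMatrix_apply, LinearMap.sub_apply, map_sub, Finsupp.sub_apply,
      Matrix.sub_apply]
  rw [e, m59tw_toMatrix_residual, Module.End.one_eq_id, LinearMap.toMatrix_id] at key
  exact key

variable [Finite (IsLocalRing.ResidueField 𝒪)]

/-- **the local shape at `p` of the residual representation of a flat lift.** -/
theorem m59tw_shape_of_flat (p : ℕ) [Fact p.Prime] [CharP (IsLocalRing.ResidueField 𝒪) p]
    (hp2 : p ≠ 2) (hdet : ρ.DetIsCyclotomic p) (hflat : ρ.IsFlatAt p)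
    (hsplit : ∀ σ : GQ, ∃ α β : IsLocalRing.ResidueField 𝒪,
      LinearMap.charpoly (ρ.residual.ρ σ) = (X - C α) * (X - C β))
    (P : ValuationSubring Qb) (hP : P.LiesOverPrime p) :
    m59tw_OrdAt ρ.residual P ∨ m59tw_SSAt p ρ.residual P := by
  classical
  let b := Module.finBasisOfFinrankEq 𝒪 ρ.V ρ.finrank_eq
  obtain ⟨H, hH⟩ := m59tw_order ρ b p hflat P hP
  -- the determinant
  have hdetB : ∀ (σ : GQ) (a : ℕ), (∀ μ : Qb, μ ^ p = 1 → σ μ = μ ^ a) →
      (m59tw_B ρ b σ).det = (a : IsLocalRing.ResidueField 𝒪) := by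
    intro σ a ha
    rw [← m59tw_hdet_of ρ p hdet σ a ha]
    have key : LinearMap.det ((ρ.ρ σ).baseChange (IsLocalRing.ResidueField 𝒪)) =
        (LinearMap.toMatrix (m59tw_bk ρ b) (m59tw_bk ρ b)
          ((ρ.ρ σ).baseChange (IsLocalRing.ResidueField 𝒪))).det :=
      (LinearMap.det_toMatrix (m59tw_bk ρ b) _).symm
    rw [m59tw_toMatrix_residual] at key
    exact key.symm
  -- the finite level
  have hlev : ∃ L : IntermediateField ℚ Qb, FiniteDimensional ℚ L ∧
      ∀ σ : GQ, (∀ x ∈ L, σ x = x) → m59tw_B ρ b σ = 1 := by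
    obtain ⟨L, hL, hL1⟩ := ρ.residual.factorsThroughFiniteLevel
    refine ⟨L, hL, fun σ hσ => ?_⟩
    have h1 := hL1 σ hσ
    have h2 : (ρ.ρ σ).baseChange (IsLocalRing.ResidueField 𝒪) = 1 := h1
    rw [← m59tw_toMatrix_residual, h2, Module.End.one_eq_id, LinearMap.toMatrix_id]
  -- the eigenvalues
  have heig : ∀ σ : GQ, ∃ (α : IsLocalRing.ResidueField 𝒪)
      (u : Fin 2 → IsLocalRing.ResidueField 𝒪), u ≠ 0 ∧ m59tw_B ρ b σ *ᵥ u = α • u := by
    intro σ
    obtain ⟨α, β, h⟩ := hsplit σ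
    have h1 : (m59tw_B ρ b σ).charpoly = (X - C α) * (X - C β) := by
      rw [← m59tw_toMatrix_residual, LinearMap.charpoly_toMatrix]
      exact h
    obtain ⟨u, hu, hαu⟩ := s56fc_exists_eigen (m59tw_B ρ b σ) α (by
      rw [h1, Polynomial.IsRoot.def, Polynomial.eval_mul, Polynomial.eval_sub, Polynomial.eval_X,
        Polynomial.eval_C, sub_self, zero_mul])
    exact ⟨α, u, hu, hαu⟩
  rcases s56fc_class hp2 (m59tw_B ρ b) P hP hdetB hlev heig hH with hord | hss
  · -- ordinary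
    left
    intro σ hσ
    obtain ⟨u₀, -, hu⟩ := hord
    obtain ⟨x, z, -, hv, hI⟩ := hu σ (s56fc_in_le_dec P hσ)
    obtain ⟨hz, -⟩ := hI hσ
    rw [m59tw_det_sub_one ρ b, Matrix.det_fin_two]
    -- the columns of `B σ - 1` are multiples of `u₀`
    have hcol : ∀ j : Fin 2, ∃ t : IsLocalRing.ResidueField 𝒪, ∀ i : Fin 2,
        (m59tw_B ρ b σ - 1) i j = t * u₀ i := by
      intro j
      obtain ⟨t, ht⟩ := hv (Pi.single j 1)
      refine ⟨t, fun i => ?_⟩
      have := congrFun ht i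
      rw [hz, one_smul] at this
      simp only [Pi.sub_apply, Pi.smul_apply, smul_eq_mul, Matrix.mulVec_single_one,
        Matrix.col_apply] at this
      rw [Matrix.sub_apply, ← this]
      congr 1
      by_cases h : i = j
      · rw [h, Matrix.one_apply_eq, Pi.single_eq_same]
      · rw [Matrix.one_apply_ne h, Pi.single_eq_of_ne h]
    obtain ⟨t₀, h₀⟩ := hcol 0
    obtain ⟨t₁, h₁⟩ := hcol 1
    rw [h₀ 0, h₁ 1, h₁ 0, h₀ 1]
    ring
  · -- supersingular
    right
    obtain ⟨e₁, e₂, χ, ϖ, hW, hϖ, hact, -, -, hι, -⟩ := hss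
    have he₁ : e₁ ≠ 0 := by
      intro h
      apply hW
      rw [h]
      simp [s56fc_wedge]
    have he₂ : e₂ ≠ 0 := by
      intro h
      apply hW
      rw [h]
      simp [s56fc_wedge]
    refine ⟨m59tw_vec ρ b e₁, m59tw_vec ρ b e₂, χ, ϖ, m59tw_vec_ne_zero ρ b he₁,
      m59tw_vec_ne_zero ρ b he₂, hϖ, fun σ => ⟨?_, ?_⟩, hι⟩
    · rw [m59tw_residual_vec, (hact σ).1, m59tw_vec_smul]
    · rw [m59tw_residual_vec, (hact σ).2, m59tw_vec_smul]

end shape

end Fermat.Agent.M59
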