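import Mathlib
import Fermat.Agent.M59.HTW.FlatConv
import Fermat.Agent.M59.G5.Seams
import Fermat.Agent.M59.G5.Coeff
import Fermat.Agent.M59.G5.Away
import Fermat.Agent.M59.G5.Split
import Fermat.Agent.M59.G5.NonEis

/-!
# S59, block [G5], sub-cell hTW (helper23): the wiring of hTW into [G5]

Tag `m59tw_`.

* `m59tw_TW2_stmt` : seam 5 (`m59g_TW_stmt`) of `M59/G5/Seams.lean` with the two extra binders that
  are in scope in `m59g_G5_of`: `maximalIdeal 𝒪 = (p)` (to call `m59g_Flat_stmt`) and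
  `m59g_QuadClosed k` (the supersingular shape needs the eigenvalues in `k`);
* `m59tw_TW2 : m59g_Flat_stmt → m59g_Ord_stmt → m59tw_TW2_stmt`   (PROVED: `m59tw_main` + converters);
* `m59tw_G5_of : m59g_Flat_stmt → m59g_Ord_stmt → m59e_G5_stmt`   (PROVED: `m59g_G5_of` of helper29
  with the landed `m59g_coeff`, `m59ga_away`, `m59ga_split`, `m59ga_nonEis` and with the leaf
  `m59g_TW_stmt` discharged): [G5] has the TWO leaves (G5-flat), (G5-ord).
-/

set_option autoImplicit false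
set_option linter.unusedSectionVars false
set_option linter.style.haveILetI false

open Polynomial IsLocalRing WeierstrassCurve

noncomputable section

namespace Fermat.Agent.M59

open Fermat.Agent.TW Fermat.Agent.S58 Fermat.Agent.JT3

/-- the traces of `(ρ_W ⊗ 𝒪)‾` are images of integers. -/
theorem m59tw_htr_tate (p : ℕ) [Fact p.Prime] (ρW : GaloisRepAdic ℤ_[p])
    (𝒪 : Type) [CommRing 𝒪] [IsDomain 𝒪] [IsDiscreteValuationRing 𝒪]
    [IsAdicComplete (maximalIdeal 𝒪) 𝒪] (hp : (p : 𝒪) ∈ maximalIdeal 𝒪) (σ : twt_G) :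
    ∃ t : ℤ, LinearMap.trace (ResidueField 𝒪) (m59g_rho p 𝒪 hp ρW).residual.V
      ((m59g_rho p 𝒪 hp ρW).residual.ρ σ) = (t : ResidueField 𝒪) := by
  obtain ⟨t, ht⟩ := m59ga_residue_padic p 𝒪 hp (LinearMap.trace ℤ_[p] ρW.V (ρW.ρ σ))
  obtain ⟨d, hd⟩ := m59ga_residue_padic p 𝒪 hp (LinearMap.det (ρW.ρ σ))
  refine ⟨t, ?_⟩
  have hcp : LinearMap.charpoly ((m59g_rho p 𝒪 hp ρW).residual.ρ σ) =
      X ^ 2 - C (t : ResidueField 𝒪) * X + C (d : ResidueField 𝒪) := by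
    unfold m59g_rho
    rw [s58top_residual_charpoly, s58top_baseChange_charpoly,
      s58cm_charpoly_two ρW.finrank_eq]
    rw [Polynomial.map_add, Polynomial.map_sub, Polynomial.map_pow, Polynomial.map_mul,
      Polynomial.map_X, Polynomial.map_C, Polynomial.map_C, Polynomial.map_add, Polynomial.map_sub,
      Polynomial.map_pow, Polynomial.map_mul, Polynomial.map_X, Polynomial.map_C, Polynomial.map_C,
      ht, hd]
  rw [m59tw_charpoly_two (m59g_rho p 𝒪 hp ρW).residual.finrank_eq] at hcp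
  have h1 := congrArg (fun q : (ResidueField 𝒪)[X] => q.coeff 1) hcp
  simp only [coeff_add, coeff_sub, coeff_X_pow, coeff_C_mul, coeff_X_one, coeff_C] at h1
  simpa using h1

/-- seam 5 of `M59/G5/Seams.lean` with the binders `maximalIdeal 𝒪 = (p)` and `m59g_QuadClosed`. -/
def m59tw_TW2_stmt : Prop :=
  ∀ (p : ℕ) [Fact p.Prime], p = 3 ∨ p = 5 → ∀ W : WeierstrassCurve ℤ, W.Δ ≠ 0 →
    W.IsSemistableModel → W.ModRepIsIrreducible p →
  ∀ (ρW : GaloisRepAdic ℤ_[p]) (π : ℕ → ρW.V →+ s58_E W), s58top_IsTate W p ρW π →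
  ∀ (𝒪 : Type) [CommRing 𝒪] [IsDomain 𝒪] [IsDiscreteValuationRing 𝒪]
    [IsAdicComplete (maximalIdeal 𝒪) 𝒪] [Finite (ResidueField 𝒪)] [CharZero 𝒪]
    (hp : (p : 𝒪) ∈ maximalIdeal 𝒪), maximalIdeal 𝒪 = Ideal.span {(p : 𝒪)} →
    m59g_QuadClosed (ResidueField 𝒪) → m59g_IsAway p W (m59g_rho p 𝒪 hp ρW) →
    twt_TWHyp (m59g_rho p 𝒪 hp ρW).residual

/-- **hTW from (G5-flat) and (G5-ord).** -/
theorem m59tw_TW2 (hFl : m59g_Flat_stmt) (hOr : m59g_Ord_stmt) : m59tw_TW2_stmt := by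
  intro p _ hp35 W hΔ hss _ ρW π hT 𝒪 _ _ _ _ _ _ hp hunr hQ hA
  have hp2 : p ≠ 2 := by rcases hp35 with rfl | rfl <;> norm_num
  have hpp : p.Prime := Fact.out
  haveI : CharP (ResidueField 𝒪) p := by
    rw [CharP.charP_iff_prime_eq_zero hpp]
    have := (residue_eq_zero_iff _).mpr hp
    rwa [map_natCast] at this
  refine m59tw_main (m59g_rho p 𝒪 hp ρW).residual hp35 hA.irr
    (m59tw_hdet_of (m59g_rho p 𝒪 hp ρW) p hA.det)
    (fun q hq hqp P hP σ hσ => m59tw_hunip_of (m59g_rho p 𝒪 hp ρW) q (hA.unip q hq hqp) P hP σ hσ)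
    (fun _ σ => m59tw_htr_tate p ρW 𝒪 hp σ) (fun P hP => ?_)
  by_cases hgood : W.IsGoodPrimeFor p
  · exact m59tw_shape_of_flat (m59g_rho p 𝒪 hp ρW) p hp2 hA.det
      (hFl p hp2 W hΔ hgood ρW π hT 𝒪 hp hunr) (m59ga_split p ρW 𝒪 hp hQ) P hP
  · exact Or.inl (m59tw_ordAt_of (m59g_rho p 𝒪 hp ρW) p
      (hOr p hp2 W hΔ hss hgood ρW π hT 𝒪 hp) P hP)

/-- **[G5] from (G5-flat) and (G5-ord)** (`m59g_G5_of` with every other leaf discharged). -/
theorem m59tw_G5_of (hFl : m59g_Flat_stmt) (hOr : m59g_Ord_stmt) : m59e_G5_stmt := by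
  intro p _ hp35 W hΔ hss hirr
  have hp2 : p ≠ 2 := by rcases hp35 with rfl | rfl <;> norm_num
  obtain ⟨𝒪, _, _, _, _, _, _, hunr, hQ⟩ := m59g_coeff p
  have hp : (p : 𝒪) ∈ maximalIdeal 𝒪 := by
    rw [hunr]; exact Ideal.mem_span_singleton_self _
  obtain ⟨ρW, π, hT⟩ := s58top_exists_tate s58t_tateSeam W hΔ p hp2
  have hA := m59ga_away p hp2 W hΔ hss hirr ρW π hT 𝒪 hp
  refine ⟨𝒪, inferInstance, inferInstance, inferInstance, inferInstance, inferInstance,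
    inferInstance, m59g_rho p 𝒪 hp ρW, hp, ?_⟩
  exact
    { det := hA.det
      unram := hA.unram
      frob := hA.frob
      frobRes := hA.frobRes
      unip := hA.unip
      flat := fun hg => hFl p hp2 W hΔ hg ρW π hT 𝒪 hp hunr
      ord := fun hb => hOr p hp2 W hΔ hss hb ρW π hT 𝒪 hp
      irr := hA.irr
      tw := m59tw_TW2 hFl hOr p hp35 W hΔ hss hirr ρW π hT 𝒪 hp hunr hQ hA
      split := m59ga_split p ρW 𝒪 hp hQ
      nonEis := m59ga_nonEis p hp2 W hΔ hss hirr ρW π hT 𝒪 hp hA }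

end Fermat.Agent.M59
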