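import Mathlib
import Fermat.Agent.M59.HTW.Wire
import Fermat.Agent.M59.G5.Seams2
import Fermat.Agent.M59.G5.Flat.Soft

/-!
# S59, block [G5] (helper23): the wiring of hTW and (G5-flat) into issue 2 of the [G5] seams

Tag `m59tw_`.  Shapes of `M59/G5/Seams2.lean` (helper29).

* `m59tw_tw2z   : m59g_Flat2_stmt → m59g_Ord2_stmt → m59g_TW2_stmt`   (hTW, issue 2);
* `m59tw_G5z_of : m59g_Flat2_stmt → m59g_Ord2_stmt → m59g_G5z_stmt`   (`m59g_G5z_of` with the landed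
  `m59ga_away`, `m59ga_split`, `m59ga_nonEis` and hTW discharged);
* `m59tw_G5z_of_ord : m59g_Ord2_stmt → m59g_G5z_stmt`, `m59tw_G5_of_ord : m59g_Ord2_stmt → m59e_G5_stmt`
  ((G5-flat) discharged by `m59gs_flat2`, M59/G5/Flat/Soft.lean): [G5] has the ONE leaf (G5-ord).
-/

set_option autoImplicit false
set_option linter.unusedSectionVars false
set_option linter.style.haveILetI false

open Polynomial IsLocalRing WeierstrassCurve

noncomputable section

namespace Fermat.Agent.M59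

open Fermat.Agent.TW Fermat.Agent.S58 Fermat.Agent.JT3

/-- **hTW (issue 2) from (G5-flat) and (G5-ord) (issue 2).** -/
theorem m59tw_tw2z (hFl : m59g_Flat2_stmt) (hOr : m59g_Ord2_stmt) : m59g_TW2_stmt := by
  intro p _ hp35 W hΔ hss _ ρW π hT 𝒪 _ _ _ _ _ _ hp hQ hA
  have hp2 : p ≠ 2 := by rcases hp35 with rfl | rfl <;> norm_num
  have hpp : p.Prime := Fact.out
  haveI : CharP (ResidueField 𝒪) p := by
    rw [CharP.charP_iff_prime_eq_zero hpp]
    have := (residue_eq_zero_iff _).mpr hp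
    rwa [map_natCast] at this
  refine m59tw_main (m59g_rho p 𝒪 hp ρW).residual hp35 hA.irr
    (m59tw_hdet_of (m59g_rho p 𝒪 hp ρW) p hA.det)
    (fun q hq hqp P hP σ hσ => m59tw_hunip_of (m59g_rho p 𝒪 hp ρW) q (hA.unip q hq hqp) P hP σ hσ)
    (fun _ σ => m59tw_htr_tate p ρW 𝒪 hp σ) (fun P hP => ?_)
  by_cases hgood : W.IsGoodPrimeFor p
  · exact m59tw_shape_of_flat (m59g_rho p 𝒪 hp ρW) p hp2 hA.det
      (hFl p hp2 W hΔ hgood ρW π hT 𝒪 hp) (m59ga_split p ρW 𝒪 hp hQ) P hP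
  · exact Or.inl (m59tw_ordAt_of (m59g_rho p 𝒪 hp ρW) p
      (hOr p hp2 W hΔ hss hgood ρW π hT 𝒪 hp hA.det) P hP)

/-- **[G5] (issue 2) from (G5-flat) and (G5-ord) (issue 2).** -/
theorem m59tw_G5z_of (hFl : m59g_Flat2_stmt) (hOr : m59g_Ord2_stmt) : m59g_G5z_stmt :=
  m59g_G5z_of m59ga_away hFl hOr (m59tw_tw2z hFl hOr) m59ga_split m59ga_nonEis

/-- **[G5] (issue 2) from (G5-ord) alone**: (G5-flat) is closed (`m59gs_flat2`). -/
theorem m59tw_G5z_of_ord (hOr : m59g_Ord2_stmt) : m59g_G5z_stmt :=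
  m59tw_G5z_of m59gs_flat2 hOr

/-- **[G5] from (G5-ord) alone.** -/
theorem m59tw_G5_of_ord (hOr : m59g_Ord2_stmt) : m59e_G5_stmt :=
  m59g_G5_of_G5z (m59tw_G5z_of_ord hOr)

end Fermat.Agent.M59
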